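import Mathlib.Tactic

/-!
# The tetrahedral forms and the twisted pencil

`hD`, `hC4`, `hC6` are binary forms of degrees 4, 4, 6 with
`hC4 ^ 3 - hC6 ^ 2 = 1728 * hD ^ 3`.  Their values on the line spanned by a point and its cubic
covariant are polynomials `qD`, `qC4`, `qC6` in the values at the point.
-/

set_option autoImplicit false

namespace Fermat.Agent.Two.Family

section Ring

variable {R : Type*} [CommRing R] {R' : Type*} [CommRing R']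

/-- The tetrahedral form of degree 4. -/
def hD (r s : R) : R := s * (r ^ 3 - 27 * s ^ 3)

/-- The invariant form of degree 4. -/
def hC4 (r s : R) : R := r * (r ^ 3 + 216 * s ^ 3)

/-- The invariant form of degree 6. -/
def hC6 (r s : R) : R := -r ^ 6 + 540 * r ^ 3 * s ^ 3 + 5832 * s ^ 6

/-- `∂hD/∂r`. -/
def hDr (r s : R) : R := 3 * r ^ 2 * s

/-- `∂hD/∂s`. -/
def hDs (r s : R) : R := r ^ 3 - 108 * s ^ 3

/-- The discriminant form on the pencil. -/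
def qD (c₄ c₆ S T : R) : R :=
  S ^ 4 - 6 * c₄ * S ^ 2 * T ^ 2 - 8 * c₆ * S * T ^ 3 - 3 * c₄ ^ 2 * T ^ 4

/-- `∂qD/∂S`. -/
def qDS (c₄ c₆ S T : R) : R := 4 * S ^ 3 - 12 * c₄ * S * T ^ 2 - 8 * c₆ * T ^ 3

/-- The invariant `c₄` on the pencil. -/
def qC4 (c₄ c₆ S T : R) : R :=
  c₄ * S ^ 4 + 4 * c₆ * S ^ 3 * T + 6 * c₄ ^ 2 * S ^ 2 * T ^ 2 + 4 * c₄ * c₆ * S * T ^ 3
    + (4 * c₆ ^ 2 - 3 * c₄ ^ 3) * T ^ 4

/-- The invariant `c₆` on the pencil. -/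
def qC6 (c₄ c₆ S T : R) : R :=
  c₆ * S ^ 6 + 6 * c₄ ^ 2 * S ^ 5 * T + 15 * c₄ * c₆ * S ^ 4 * T ^ 2
    + 20 * c₆ ^ 2 * S ^ 3 * T ^ 3 + 15 * c₄ ^ 2 * c₆ * S ^ 2 * T ^ 4
    + (18 * c₄ ^ 4 - 12 * c₄ * c₆ ^ 2) * S * T ^ 5 + (9 * c₄ ^ 3 * c₆ - 8 * c₆ ^ 3) * T ^ 6

theorem hC4_cube_sub_hC6_sq (r s : R) : hC4 r s ^ 3 - hC6 r s ^ 2 = 1728 * hD r s ^ 3 := by
  simp only [hC4, hC6, hD]; ring

theorem qC4_cube_sub_qC6_sq (c₄ c₆ S T : R) :
    qC4 c₄ c₆ S T ^ 3 - qC6 c₄ c₆ S T ^ 2 = (c₄ ^ 3 - c₆ ^ 2) * qD c₄ c₆ S T ^ 3 := by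
  simp only [qC4, qC6, qD]; ring

theorem hD_line (r s S T : R) :
    hD (S * r - T * hDs r s) (S * s + T * hDr r s) = hD r s * qD (hC4 r s) (hC6 r s) S T := by
  simp only [hD, hDs, hDr, qD, hC4, hC6]; ring

theorem hC4_line (r s S T : R) :
    hC4 (S * r - T * hDs r s) (S * s + T * hDr r s) = qC4 (hC4 r s) (hC6 r s) S T := by
  simp only [hDs, hDr, qC4, hC4, hC6]; ring

theorem hC6_line (r s S T : R) :
    hC6 (S * r - T * hDs r s) (S * s + T * hDr r s) = qC6 (hC4 r s) (hC6 r s) S T := by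
  simp only [hDs, hDr, qC6, hC4, hC6]; ring

theorem qD_smul (c₄ c₆ l S T : R) : qD c₄ c₆ (l * S) (l * T) = l ^ 4 * qD c₄ c₆ S T := by
  simp only [qD]; ring

theorem qC4_smul (c₄ c₆ l S T : R) : qC4 c₄ c₆ (l * S) (l * T) = l ^ 4 * qC4 c₄ c₆ S T := by
  simp only [qC4]; ring

theorem qC6_smul (c₄ c₆ l S T : R) : qC6 c₄ c₆ (l * S) (l * T) = l ^ 6 * qC6 c₄ c₆ S T := by
  simp only [qC6]; ring

theorem qD_one_zero (c₄ c₆ : R) : qD c₄ c₆ 1 0 = 1 := by simp [qD]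

theorem qC4_one_zero (c₄ c₆ : R) : qC4 c₄ c₆ 1 0 = c₄ := by simp [qC4]

theorem qC6_one_zero (c₄ c₆ : R) : qC6 c₄ c₆ 1 0 = c₆ := by simp [qC6]

theorem map_hC4 (f : R →+* R') (r s : R) : f (hC4 r s) = hC4 (f r) (f s) := by
  simp [hC4, map_ofNat]

theorem map_hC6 (f : R →+* R') (r s : R) : f (hC6 r s) = hC6 (f r) (f s) := by
  simp [hC6, map_ofNat]

theorem map_hDr (f : R →+* R') (r s : R) : f (hDr r s) = hDr (f r) (f s) := by
  simp [hDr, map_ofNat]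

theorem map_hDs (f : R →+* R') (r s : R) : f (hDs r s) = hDs (f r) (f s) := by
  simp [hDs, map_ofNat]

theorem map_qD (f : R →+* R') (c₄ c₆ S T : R) :
    f (qD c₄ c₆ S T) = qD (f c₄) (f c₆) (f S) (f T) := by
  simp [qD, map_ofNat]

theorem map_qDS (f : R →+* R') (c₄ c₆ S T : R) :
    f (qDS c₄ c₆ S T) = qDS (f c₄) (f c₆) (f S) (f T) := by
  simp [qDS, map_ofNat]

theorem map_qC4 (f : R →+* R') (c₄ c₆ S T : R) :
    f (qC4 c₄ c₆ S T) = qC4 (f c₄) (f c₆) (f S) (f T) := by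
  simp [qC4, map_ofNat]

theorem map_qC6 (f : R →+* R') (c₄ c₆ S T : R) :
    f (qC6 c₄ c₆ S T) = qC6 (f c₄) (f c₆) (f S) (f T) := by
  simp [qC6, map_ofNat]

/-- The Hessian of `qD` is a multiple of `qC4`, seen at a zero. -/
theorem nine_mul_qDS_sq (c₄ c₆ S T : R) :
    9 * qDS c₄ c₆ S T ^ 2
      = 12 * qD c₄ c₆ S T * (12 * S ^ 2 - 12 * c₄ * T ^ 2) + 144 * T ^ 2 * qC4 c₄ c₆ S T := by
  simp only [qDS, qD, qC4]; ring

theorem dehom_qD (c₄ c₆ x : R) :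
    qD c₄ c₆ x 1 = x ^ 4 + -6 * c₄ * x ^ 2 + -8 * c₆ * x + -3 * c₄ ^ 2 := by
  simp only [qD]; ring

/-- The discriminant of `qD`. -/
theorem disc_qD (c₄ c₆ : R) :
    256 * (-3 * c₄ ^ 2) ^ 3 - 128 * (-6 * c₄) ^ 2 * (-3 * c₄ ^ 2) ^ 2
      + 144 * (-6 * c₄) * (-8 * c₆) ^ 2 * (-3 * c₄ ^ 2) - 27 * (-8 * c₆) ^ 4
      + 16 * (-6 * c₄) ^ 4 * (-3 * c₄ ^ 2) - 4 * (-6 * c₄) ^ 3 * (-8 * c₆) ^ 2
      = -110592 * (c₄ ^ 3 - c₆ ^ 2) ^ 2 := by
  ring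

/-- The discriminant of a depressed quartic vanishes at a double root. -/
theorem disc_eq_zero_of_double_root {p q r x : R} (h : x ^ 4 + p * x ^ 2 + q * x + r = 0)
    (h' : 4 * x ^ 3 + 2 * p * x + q = 0) :
    256 * r ^ 3 - 128 * p ^ 2 * r ^ 2 + 144 * p * q ^ 2 * r - 27 * q ^ 4 + 16 * p ^ 4 * r
      - 4 * p ^ 3 * q ^ 2 = 0 := by
  obtain rfl : q = -(4 * x ^ 3 + 2 * p * x) := by linear_combination h'
  obtain rfl : r = -(x ^ 4 + p * x ^ 2 - (4 * x ^ 3 + 2 * p * x) * x) := by linear_combination h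
  ring

end Ring

section Field

variable {K : Type*} [Field K]

/-- Away from `2`, `3` and the discriminant, `qD` has simple roots. -/
theorem eq_zero_of_qD_qDS {c₄ c₆ S T : K} (h2 : (2 : K) ≠ 0) (h3 : (3 : K) ≠ 0)
    (hΔ : c₄ ^ 3 - c₆ ^ 2 ≠ 0) (hD : qD c₄ c₆ S T = 0) (hS : qDS c₄ c₆ S T = 0) :
    S = 0 ∧ T = 0 := by
  by_cases hT : T = 0
  · subst hT
    refine ⟨?_, rfl⟩
    simpa [qD] using hD
  · exfalso
    have hx : S / T * T = S := div_mul_cancel₀ S hT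
    have e1 : qD c₄ c₆ (S / T) 1 = 0 := by
      have := qD_smul c₄ c₆ T (S / T) 1
      rw [mul_comm T, hx, mul_one, hD] at this
      exact (mul_eq_zero.mp this.symm).resolve_left (pow_ne_zero 4 hT)
    have e2 : qDS c₄ c₆ (S / T) 1 = 0 := by
      have : qDS c₄ c₆ (S / T) 1 * T ^ 3 = qDS c₄ c₆ S T := by
        simp only [qDS]; field_simp
      rw [hS] at this
      exact (mul_eq_zero.mp this).resolve_right (pow_ne_zero 3 hT)
    rw [dehom_qD] at e1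
    have h := disc_eq_zero_of_double_root e1 (by simp only [qDS] at e2; linear_combination e2)
    rw [disc_qD] at h
    have hc : (-110592 : K) ≠ 0 := by
      rw [show (-110592 : K) = -((2 : K) ^ 12 * 3 ^ 3) by norm_num]
      exact neg_ne_zero.mpr (mul_ne_zero (pow_ne_zero _ h2) (pow_ne_zero _ h3))
    exact mul_ne_zero hc (pow_ne_zero 2 hΔ) h

/-- Away from `2`, `3` and the discriminant, `qD` and `qC4` have no common zero. -/
theorem eq_zero_of_qD_qC4 {c₄ c₆ S T : K} (h2 : (2 : K) ≠ 0) (h3 : (3 : K) ≠ 0)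
    (hΔ : c₄ ^ 3 - c₆ ^ 2 ≠ 0) (hD : qD c₄ c₆ S T = 0) (h4 : qC4 c₄ c₆ S T = 0) :
    S = 0 ∧ T = 0 := by
  refine eq_zero_of_qD_qDS h2 h3 hΔ hD ?_
  have h := nine_mul_qDS_sq c₄ c₆ S T
  rw [hD, h4] at h
  simp only [mul_zero, zero_mul, add_zero, mul_eq_zero] at h
  rcases h with h | h
  · exact absurd (by rw [show (9 : K) = 3 ^ 2 by norm_num] at h; simpa using h) h3
  · simpa using h

end Field

end Fermat.Agent.Two.Family
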