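import Mathlib
import Fermat.Agent.Two.Family.Forms

/-!
# The supersingular class at 2

For a curve multiplicative at `2` with `3 ∣ v₂ Δ`, the members of the pencil near `(-c₆ : c₄)` have
scaled invariants of a curve with good supersingular reduction at `2`.
-/

set_option autoImplicit false

namespace Fermat.Agent.Two.Family

variable {c₄ c₆ Δ Δo S T : ℤ} {j : ℕ}

theorem modEq_left {n S' : ℤ} (h : S ≡ S' [ZMOD n]) :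
    qD c₄ c₆ S T ≡ qD c₄ c₆ S' T [ZMOD n] ∧ qC4 c₄ c₆ S T ≡ qC4 c₄ c₆ S' T [ZMOD n] ∧
      qC6 c₄ c₆ S T ≡ qC6 c₄ c₆ S' T [ZMOD n] :=
  ⟨by unfold qD; gcongr, by unfold qC4; gcongr, by unfold qC6; gcongr⟩

theorem qC4_at_neg_c₆ (c₄ c₆ Δ T : ℤ) (h : c₄ ^ 3 - c₆ ^ 2 = 1728 * Δ) :
    qC4 c₄ c₆ (-c₆ * T) (c₄ * T) = -3 * c₄ * T ^ 4 * (1728 * Δ) ^ 2 := by
  simp only [qC4]; linear_combination (-3 * c₄ * T ^ 4 * (c₄ ^ 3 - c₆ ^ 2 + 1728 * Δ)) * h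

theorem qC6_at_neg_c₆ (c₄ c₆ Δ T : ℤ) (h : c₄ ^ 3 - c₆ ^ 2 = 1728 * Δ) :
    qC6 c₄ c₆ (-c₆ * T) (c₄ * T)
      = -c₆ * T ^ 6 * (1728 * Δ) ^ 2 * (8 * c₆ ^ 2 + 15552 * Δ) := by
  have e : c₄ ^ 3 = c₆ ^ 2 + 1728 * Δ := by linear_combination h
  rw [mul_comm (-c₆) T, mul_comm c₄ T, qC6_smul, show qC6 c₄ c₆ (-c₆) c₄ =
    c₆ ^ 7 - 6 * (c₄ ^ 3) * c₆ ^ 5 + 15 * (c₄ ^ 3) * c₆ ^ 5 - 20 * (c₄ ^ 3) * c₆ ^ 5
      + 15 * (c₄ ^ 3) ^ 2 * c₆ ^ 3 - (18 * (c₄ ^ 3) ^ 3 * c₆ - 12 * (c₄ ^ 3) ^ 2 * c₆ ^ 3)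
      + (9 * (c₄ ^ 3) ^ 3 * c₆ - 8 * (c₄ ^ 3) ^ 2 * c₆ ^ 3) by simp only [qC6]; ring, e]
  ring

theorem qD_at_neg_c₆ (c₄ c₆ Δ T : ℤ) (h : c₄ ^ 3 - c₆ ^ 2 = 1728 * Δ) :
    qD c₄ c₆ (-c₆ * T) (c₄ * T) = -(T ^ 4) * (1728 * Δ) * (4 * c₆ ^ 2 + 5184 * Δ) := by
  simp only [qD]
  linear_combination (-(T ^ 4) * (3 * (c₄ ^ 3 + c₆ ^ 2 + 1728 * Δ) - 2 * c₆ ^ 2)) * h

/-- The scaled invariants in the class at `2`. -/
theorem at_two (hrel : c₄ ^ 3 - c₆ ^ 2 = 1728 * Δ) (hΔ : Δ = 2 ^ (3 * j) * Δo)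
    (hΔo : ¬ (2 : ℤ) ∣ Δo) (h4 : ¬ (2 : ℤ) ∣ c₄) (h6 : c₆ % 4 = 3) (hT : ¬ (2 : ℤ) ∣ T)
    {N : ℕ} (hN : 6 * j + 17 ≤ N) (hcl : (2 : ℤ) ^ N ∣ c₄ * S + c₆ * T) :
    (∃ x : ℤ, qC4 c₄ c₆ S T = 2 ^ (4 * (j + 2)) * (16 * x)) ∧
      (∃ x : ℤ, qC6 c₄ c₆ S T = 2 ^ (6 * (j + 2)) * (32 * x + 8)) ∧
      ∃ n : ℤ, ¬ (2 : ℤ) ∣ n ∧ qD c₄ c₆ S T = 2 ^ (3 * j + 8) * n := by
  have hS : c₄ * S ≡ -c₆ * T [ZMOD 2 ^ N] :=
    Int.modEq_iff_dvd.mpr (by simpa [sub_eq_add_neg, add_comm, neg_add] using hcl.neg_right)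
  have hcop : ∀ k m : ℕ, IsCoprime ((2 : ℤ) ^ k) (c₄ ^ m) := fun k m =>
    (Int.prime_two.coprime_iff_not_dvd.mpr h4).pow
  have hle : ∀ e : ℕ, e ≤ 6 * j + 17 → (2 : ℤ) ^ e ∣ 2 ^ N := fun e he => pow_dvd_pow _ (he.trans hN)
  refine ⟨?_, ?_, ?_⟩
  · have key : (2 : ℤ) ^ (4 * j + 12) ∣ qC4 c₄ c₆ S T := by
      apply (hcop _ 4).dvd_of_dvd_mul_left
      rw [← qC4_smul]
      refine Int.modEq_zero_iff_dvd.mp (Int.ModEq.trans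
        (b := qC4 c₄ c₆ (-c₆ * T) (c₄ * T)) ?_ ?_)
      · exact (modEq_left (hS.of_dvd (hle _ (by omega)))).2.1
      · rw [qC4_at_neg_c₆ _ _ _ _ hrel, hΔ]
        refine Int.modEq_zero_iff_dvd.mpr ((pow_dvd_pow (2 : ℤ)
          (show 4 * j + 12 ≤ 6 * j + 12 by omega)).trans
          ⟨-3 * c₄ * T ^ 4 * (27 * Δo) ^ 2, ?_⟩)
        rw [show 6 * j + 12 = 2 * (3 * j) + 12 by omega, pow_add, pow_mul']; ring
    obtain ⟨x, hx⟩ := key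
    exact ⟨x, by rw [hx, show 4 * j + 12 = 4 * (j + 2) + 4 by omega, pow_add]; ring⟩
  · set E := -c₆ * T ^ 6 * (27 * Δo) ^ 2 * (c₆ ^ 2 + 1944 * Δ) with hE
    have hm : qC6 c₄ c₆ (c₄ * S) (c₄ * T) ≡ 2 ^ (6 * j + 15) * E [ZMOD 2 ^ (6 * j + 17)] := by
      refine Int.ModEq.trans (b := qC6 c₄ c₆ (-c₆ * T) (c₄ * T)) ?_ ?_
      · exact (modEq_left (hS.of_dvd (hle _ le_rfl))).2.2
      · rw [qC6_at_neg_c₆ _ _ _ _ hrel, hE, hΔ,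
          show 6 * j + 15 = 2 * (3 * j) + 15 by omega, pow_add (2 : ℤ) (2 * (3 * j)) 15, pow_mul']
        ring_nf; rfl
    obtain ⟨e, he⟩ := Int.modEq_iff_dvd.mp hm
    rw [qC6_smul, show 6 * j + 17 = (6 * j + 15) + 2 by omega, pow_add _ (6 * j + 15) 2] at he
    have hdvd : (2 : ℤ) ^ (6 * j + 15) ∣ qC6 c₄ c₆ S T :=
      (hcop _ 6).dvd_of_dvd_mul_left ⟨E - 4 * e, by linear_combination -he⟩
    obtain ⟨m, hm'⟩ := hdvd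
    have hm4 : c₄ ^ 6 * m = E - 4 * e := by
      refine mul_left_cancel₀ (pow_ne_zero (6 * j + 15) (two_ne_zero (α := ℤ))) ?_
      rw [hm'] at he
      linear_combination -he
    have sq1 : ∀ z : ℤ, ¬ (2 : ℤ) ∣ z → (z : ZMod 4) ^ 2 = 1 := fun z hz => by
      obtain ⟨k, rfl⟩ : ∃ k, z = 2 * k + 1 := ⟨z / 2, by omega⟩
      rw [← Int.cast_pow, show (2 * k + 1) ^ 2 = 4 * (k ^ 2 + k) + 1 by ring]
      push_cast
      rw [show (4 : ZMod 4) = 0 from rfl, zero_mul, zero_add]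
    have o4 := sq1 c₄ h4
    have oT := sq1 T hT
    have oD := sq1 (27 * Δo) (by omega)
    have o6 : (c₆ : ZMod 4) = 3 := by
      simpa using (ZMod.intCast_eq_intCast_iff' c₆ 3 4).mpr (by norm_num [h6])
    push_cast at oD
    have hm1 : (m : ZMod 4) = 1 := by
      have := congrArg (Int.cast (R := ZMod 4)) hm4
      rw [hE] at this
      push_cast at this
      rw [show (c₄ : ZMod 4) ^ 6 = ((c₄ : ZMod 4) ^ 2) ^ 3 by ring, o4,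
        show (T : ZMod 4) ^ 6 = ((T : ZMod 4) ^ 2) ^ 3 by ring, oT, oD, o6,
        show (4 : ZMod 4) = 0 from rfl, show (1944 : ZMod 4) = 0 from rfl] at this
      simp only [one_pow, mul_one, one_mul, zero_mul, add_zero, sub_zero] at this
      rw [this]
      rfl
    obtain ⟨x, hx⟩ : (4 : ℤ) ∣ m - 1 :=
      (ZMod.intCast_zmod_eq_zero_iff_dvd _ 4).mp (by push_cast; rw [hm1, sub_self])
    exact ⟨x, by
      rw [hm', show 6 * j + 15 = 6 * (j + 2) + 3 by omega, pow_add, show m = 4 * x + 1 by omega]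
      ring⟩
  · set E := -(T ^ 4) * (27 * Δo) * (c₆ ^ 2 + 1296 * Δ) with hE
    have hm : qD c₄ c₆ (c₄ * S) (c₄ * T) ≡ 2 ^ (3 * j + 8) * E [ZMOD 2 ^ (3 * j + 9)] := by
      refine Int.ModEq.trans (b := qD c₄ c₆ (-c₆ * T) (c₄ * T)) ?_ (?_)
      · exact (modEq_left (hS.of_dvd (hle _ (by omega)))).1
      · rw [qD_at_neg_c₆ _ _ _ _ hrel, hE, hΔ, pow_add (2 : ℤ) (3 * j) 8]
        ring_nf; rfl
    obtain ⟨e, he⟩ := Int.modEq_iff_dvd.mp hm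
    rw [qD_smul, show 3 * j + 9 = (3 * j + 8) + 1 by omega, pow_add _ (3 * j + 8) 1] at he
    obtain ⟨n, hn⟩ : (2 : ℤ) ^ (3 * j + 8) ∣ qD c₄ c₆ S T :=
      (hcop _ 4).dvd_of_dvd_mul_left ⟨E - 2 * e, by linear_combination -he⟩
    have hn2 : c₄ ^ 4 * n = E - 2 * e := by
      refine mul_left_cancel₀ (pow_ne_zero (3 * j + 8) (two_ne_zero (α := ℤ))) ?_
      rw [hn] at he
      linear_combination -he
    refine ⟨n, fun hd => ?_, hn⟩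
    have hE2 : (2 : ℤ) ∣ E := by
      rw [show E = c₄ ^ 4 * n + 2 * e by rw [hn2]; ring]
      exact dvd_add (hd.mul_left _) (dvd_mul_right _ _)
    rw [hE] at hE2
    rcases Int.prime_two.dvd_mul.mp hE2 with h | h
    · rcases Int.prime_two.dvd_mul.mp h with h | h
      · exact hT (Int.prime_two.dvd_of_dvd_pow (dvd_neg.mp h))
      · omega
    · have : (2 : ℤ) ∣ c₆ ^ 2 := by
        have := dvd_sub h (show (2 : ℤ) ∣ 1296 * Δ from dvd_mul_of_dvd_left (by norm_num) _)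
        rwa [add_sub_cancel_right] at this
      have := Int.prime_two.dvd_of_dvd_pow this
      omega

end Fermat.Agent.Two.Family
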