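import Mathlib
import Fermat.Prelude.Def_FLTPrelim_Modularity

/-!
# Integral models with prescribed invariants

Two integers `c₄`, `c₆` with `c₄ ^ 3 - c₆ ^ 2 = 1728 * D` are the invariants of an integral
Weierstrass model as soon as they are so locally at `2` and at `3`.
-/

set_option autoImplicit false

namespace Fermat.Agent.Two.Family

/-- `48 * a₄` in terms of `a₁`, `a₂`, `a₃`, `c₄`. -/
def modelX {R : Type*} [CommRing R] (a₁ a₂ a₃ c₄ : R) : R :=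
  (a₁ ^ 2 + 4 * a₂) ^ 2 - c₄ - 24 * a₁ * a₃

/-- `1728 * a₆` in terms of `a₁`, `a₂`, `a₃`, `c₄`, `c₆`. -/
def modelY {R : Type*} [CommRing R] (a₁ a₂ a₃ c₄ c₆ : R) : R :=
  (a₁ ^ 2 + 4 * a₂) ^ 3 - 3 * (a₁ ^ 2 + 4 * a₂) * c₄ - 432 * a₃ ^ 2 - 2 * c₆

/-- Invariants coming from an integral model modulo `m` and `n`. -/
def HasModelAt (m n c₄ c₆ : ℤ) : Prop :=
  ∃ a₁ a₂ a₃ : ℤ, m ∣ modelX a₁ a₂ a₃ c₄ ∧ n ∣ modelY a₁ a₂ a₃ c₄ c₆

theorem modelX_c₄ (W : WeierstrassCurve ℤ) : modelX W.a₁ W.a₂ W.a₃ W.c₄ = 48 * W.a₄ := by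
  simp only [modelX, WeierstrassCurve.c₄, WeierstrassCurve.b₂, WeierstrassCurve.b₄]; ring

theorem modelY_c₆ (W : WeierstrassCurve ℤ) :
    modelY W.a₁ W.a₂ W.a₃ W.c₄ W.c₆ = 1728 * W.a₆ := by
  simp only [modelY, WeierstrassCurve.c₄, WeierstrassCurve.c₆, WeierstrassCurve.b₂,
    WeierstrassCurve.b₄, WeierstrassCurve.b₆]; ring

theorem hasModelAt_three_of_modEq (W : WeierstrassCurve ℤ) {c₄ c₆ : ℤ}
    (h4 : c₄ ≡ W.c₄ [ZMOD 27]) (h6 : c₆ ≡ W.c₆ [ZMOD 27]) : HasModelAt 3 27 c₄ c₆ := by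
  have h4' : c₄ ≡ W.c₄ [ZMOD 3] := h4.of_dvd (by norm_num)
  refine ⟨W.a₁, W.a₂, W.a₃, Int.modEq_zero_iff_dvd.mp ?_, Int.modEq_zero_iff_dvd.mp ?_⟩
  · calc modelX W.a₁ W.a₂ W.a₃ c₄ ≡ modelX W.a₁ W.a₂ W.a₃ W.c₄ [ZMOD 3] := by
          unfold modelX; gcongr
      _ ≡ 0 [ZMOD 3] := by
          rw [modelX_c₄]; exact Int.modEq_zero_iff_dvd.mpr (dvd_mul_of_dvd_left (by norm_num) _)
  · calc modelY W.a₁ W.a₂ W.a₃ c₄ c₆ ≡ modelY W.a₁ W.a₂ W.a₃ W.c₄ W.c₆ [ZMOD 27] := by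
          unfold modelY; gcongr
      _ ≡ 0 [ZMOD 27] := by
          rw [modelY_c₆]; exact Int.modEq_zero_iff_dvd.mpr (dvd_mul_of_dvd_left (by norm_num) _)

/-- Unit `c₄` at `3`: a multiplicative or ordinary model. -/
theorem hasModelAt_three_of_unit {c₄ c₆ D : ℤ} (hrel : c₄ ^ 3 - c₆ ^ 2 = 1728 * D)
    (h : ¬ (3 : ℤ) ∣ c₄) : HasModelAt 3 27 c₄ c₆ := by
  obtain ⟨k, m, hk⟩ : IsCoprime c₄ (27 : ℤ) := by
    rw [show (27 : ℤ) = 3 ^ 3 by norm_num]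
    exact ((Int.prime_three.coprime_iff_not_dvd).mpr h).symm.pow_right
  have hk' : (c₄ : ZMod 27) * k = 1 := by
    have := congrArg (Int.cast (R := ZMod 27)) hk
    push_cast at this
    rw [show (27 : ZMod 27) = 0 from rfl, mul_zero, add_zero] at this
    rwa [mul_comm]
  have hr : (c₄ : ZMod 27) ^ 3 = (c₆ : ZMod 27) ^ 2 := by
    have := congrArg (Int.cast (R := ZMod 27)) hrel
    push_cast at this
    rw [show (1728 : ZMod 27) = 0 from rfl, zero_mul] at this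
    exact sub_eq_zero.mp this
  refine ⟨0, 7 * (-c₆ * k), 0, (show (3 : ℤ) ∣ 27 by norm_num).trans
    ((ZMod.intCast_zmod_eq_zero_iff_dvd _ 27).mp ?_),
    (ZMod.intCast_zmod_eq_zero_iff_dvd _ 27).mp ?_⟩
  · have : ((modelX 0 (7 * (-c₆ * k)) 0 c₄ : ℤ) : ZMod 27)
        = (c₆ : ZMod 27) ^ 2 * (k : ZMod 27) ^ 2 - c₄ := by
      simp only [modelX]; push_cast; ring_nf; reduce_mod_char
    rw [this, ← hr]
    linear_combination ((c₄ : ZMod 27) * ((c₄ : ZMod 27) * k + 1)) * hk'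
  · have : ((modelY 0 (7 * (-c₆ * k)) 0 c₄ c₆ : ℤ) : ZMod 27)
        = -(c₆ : ZMod 27) ^ 3 * (k : ZMod 27) ^ 3 + 3 * c₆ * k * c₄ - 2 * c₆ := by
      simp only [modelY]; push_cast; ring_nf; reduce_mod_char
    rw [this]
    linear_combination (-(c₆ : ZMod 27) * (((c₄ : ZMod 27) * k) ^ 2 + (c₄ : ZMod 27) * k + 1)
      + 3 * c₆) * hk' + (c₆ : ZMod 27) * (k : ZMod 27) ^ 3 * hr

/-- Supersingular invariants at `2`. -/
theorem hasModelAt_two_of_supersingular {c₄ c₆ : ℤ} (h4 : (16 : ℤ) ∣ c₄)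
    (h6 : (32 : ℤ) ∣ c₆ - 8) : HasModelAt 16 64 c₄ c₆ := by
  refine ⟨0, 0, 1, ?_, ?_⟩
  · simpa [modelX] using h4
  · obtain ⟨t, ht⟩ := h6
    exact ⟨-7 - t, by simp only [modelY]; linear_combination (-2 : ℤ) * ht⟩

/-- An integral model with the given invariants. -/
theorem exists_model {c₄ c₆ D : ℤ} (hrel : c₄ ^ 3 - c₆ ^ 2 = 1728 * D)
    (h2 : HasModelAt 16 64 c₄ c₆) (h3 : HasModelAt 3 27 c₄ c₆) :
    ∃ W : WeierstrassCurve ℤ, W.c₄ = c₄ ∧ W.c₆ = c₆ ∧ W.Δ = D := by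
  obtain ⟨p₁, p₂, p₃, hX2, hY2⟩ := h2
  obtain ⟨q₁, q₂, q₃, hX3, hY3⟩ := h3
  have e64 : ∀ p q : ℤ, 513 * p + 1216 * q ≡ p [ZMOD 64] := fun p q =>
    Int.modEq_iff_dvd.mpr ⟨-8 * p - 19 * q, by ring⟩
  have e27 : ∀ p q : ℤ, 513 * p + 1216 * q ≡ q [ZMOD 27] := fun p q =>
    Int.modEq_iff_dvd.mpr ⟨-19 * p - 45 * q, by ring⟩
  set a₁ := 513 * p₁ + 1216 * q₁
  set a₂ := 513 * p₂ + 1216 * q₂
  set a₃ := 513 * p₃ + 1216 * q₃
  have hX : (48 : ℤ) ∣ modelX a₁ a₂ a₃ c₄ := by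
    have k16 : modelX a₁ a₂ a₃ c₄ ≡ modelX p₁ p₂ p₃ c₄ [ZMOD 16] := by
      unfold modelX; gcongr <;> exact (e64 _ _).of_dvd (by norm_num)
    have k3 : modelX a₁ a₂ a₃ c₄ ≡ modelX q₁ q₂ q₃ c₄ [ZMOD 3] := by
      unfold modelX; gcongr <;> exact (e27 _ _).of_dvd (by norm_num)
    have i16 := Int.modEq_zero_iff_dvd.mp (k16.trans (Int.modEq_zero_iff_dvd.mpr hX2))
    have i3 := Int.modEq_zero_iff_dvd.mp (k3.trans (Int.modEq_zero_iff_dvd.mpr hX3))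
    omega
  have hY : (1728 : ℤ) ∣ modelY a₁ a₂ a₃ c₄ c₆ := by
    have k64 : modelY a₁ a₂ a₃ c₄ c₆ ≡ modelY p₁ p₂ p₃ c₄ c₆ [ZMOD 64] := by
      unfold modelY; gcongr <;> exact e64 _ _
    have k27 : modelY a₁ a₂ a₃ c₄ c₆ ≡ modelY q₁ q₂ q₃ c₄ c₆ [ZMOD 27] := by
      unfold modelY; gcongr <;> exact e27 _ _
    have i64 := Int.modEq_zero_iff_dvd.mp (k64.trans (Int.modEq_zero_iff_dvd.mpr hY2))
    have i27 := Int.modEq_zero_iff_dvd.mp (k27.trans (Int.modEq_zero_iff_dvd.mpr hY3))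
    omega
  obtain ⟨a₄, h4⟩ := hX
  obtain ⟨a₆, h6⟩ := hY
  let W : WeierstrassCurve ℤ := ⟨a₁, a₂, a₃, a₄, a₆⟩
  have e4 : W.c₄ = c₄ := by
    have := modelX_c₄ W
    simp only [modelX, W] at this h4 ⊢
    linear_combination -(this - h4)
  have e6 : W.c₆ = c₆ := by
    have := modelY_c₆ W
    rw [e4] at this
    simp only [modelY, W] at this h6 ⊢
    linarith
  refine ⟨W, e4, e6, ?_⟩
  have h := W.c_relation
  rw [e4, e6, hrel] at h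
  omega

/-- A good model with `16 ∣ c₄` has even `a₁`. -/
theorem two_dvd_a₁ {W : WeierstrassCurve ℤ} (h : (16 : ℤ) ∣ W.c₄) : (2 : ℤ) ∣ W.a₁ := by
  have h' : ((W.c₄ : ℤ) : ZMod 2) = 0 :=
    (ZMod.intCast_zmod_eq_zero_iff_dvd _ 2).mpr ((show (2 : ℤ) ∣ 16 by norm_num).trans h)
  refine (ZMod.intCast_zmod_eq_zero_iff_dvd _ 2).mp ?_
  simp only [WeierstrassCurve.c₄, WeierstrassCurve.b₂, WeierstrassCurve.b₄] at h'
  push_cast at h'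
  generalize (W.a₁ : ZMod 2) = x at h' ⊢
  revert x h'
  generalize (W.a₂ : ZMod 2) = y
  generalize (W.a₃ : ZMod 2) = z
  generalize (W.a₄ : ZMod 2) = w
  revert y z w
  decide

end Fermat.Agent.Two.Family
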