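import Fermat.Agent.Two.Family.Forms
import Fermat.Agent.Two.Sieve.Direction

/-!
# Choice of the parameters on the pencil

The sieve yields coprime parameters with the prescribed local behaviour at the primes of the
discriminant, at `2`, `3`, at auxiliary primes and at given primes where `qD` has a root, negative discriminant, and a discriminant
factor without square elsewhere.
-/

set_option autoImplicit false

namespace Fermat.Agent.Two.Family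

open Finset Fermat.Agent.Two

/-- The coefficients of `qD` in the shape used by the sieve. -/
def qDCoeff (c₄ c₆ : ℤ) : Fin 5 → ℤ := ![1, 0, -6 * c₄, -8 * c₆, -3 * c₄ ^ 2]

theorem val_qDCoeff {R : Type*} [CommRing R] (c₄ c₆ : ℤ) (S T : R) :
    Sieve.val (qDCoeff c₄ c₆) S T = qD (c₄ : R) c₆ S T := by
  simp [Sieve.val, qDCoeff, qD]; ring

theorem gx_qDCoeff {R : Type*} [CommRing R] (c₄ c₆ : ℤ) (S T : R) :
    Sieve.gx (qDCoeff c₄ c₆) S T = qDS (c₄ : R) c₆ S T := by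
  simp [Sieve.gx, qDCoeff, qDS]; ring

theorem cast_rel {R : Type*} [CommRing R] {c₄ c₆ Δ : ℤ} (hrel : c₄ ^ 3 - c₆ ^ 2 = 1728 * Δ) :
    (c₄ : R) ^ 3 - (c₆ : R) ^ 2 = 1728 * (Δ : R) := by
  exact_mod_cast congrArg (Int.cast (R := R)) hrel

/-- A prime away from `6 Δ` is good for `qD`. -/
theorem goodAt_qDCoeff {c₄ c₆ Δ : ℤ} (hrel : c₄ ^ 3 - c₆ ^ 2 = 1728 * Δ) {q : ℕ} [Fact q.Prime]
    (hq2 : q ≠ 2) (hq3 : q ≠ 3) (hqΔ : ¬ (q : ℤ) ∣ Δ) : Sieve.GoodAt (qDCoeff c₄ c₆) q := by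
  intro x y hxy hv
  rw [val_qDCoeff] at hv
  refine Or.inl fun hx => ?_
  rw [gx_qDCoeff] at hx
  have hne : ∀ p : ℕ, p.Prime → q ≠ p → ((p : ℕ) : ZMod q) ≠ 0 := fun p hp hqp => by
    rw [Ne, ZMod.natCast_eq_zero_iff, Nat.prime_dvd_prime_iff_eq Fact.out hp]
    exact hqp
  have h2 : (2 : ZMod q) ≠ 0 := by exact_mod_cast hne 2 Nat.prime_two hq2
  have h3 : (3 : ZMod q) ≠ 0 := by exact_mod_cast hne 3 Nat.prime_three hq3
  have hd : ((c₄ : ZMod q)) ^ 3 - (c₆ : ZMod q) ^ 2 ≠ 0 := by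
    rw [cast_rel hrel, show (1728 : ZMod q) = 2 ^ 6 * 3 ^ 3 by norm_num]
    refine mul_ne_zero (mul_ne_zero (pow_ne_zero _ h2) (pow_ne_zero _ h3)) ?_
    rwa [Ne, ZMod.intCast_zmod_eq_zero_iff_dvd]
  obtain ⟨rfl, rfl⟩ := eq_zero_of_qD_qDS h2 h3 hd hv hx
  exact hxy.elim (· rfl) (· rfl)

theorem qD_congr {n : ℕ} (c₄ c₆ : ℤ) {S T S' T' : ℤ} (hS : (n : ℤ) ∣ S - S')
    (hT : (n : ℤ) ∣ T - T') : (n : ℤ) ∣ qD c₄ c₆ S T - qD c₄ c₆ S' T' := by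
  rw [← ZMod.intCast_zmod_eq_zero_iff_dvd, Int.cast_sub, sub_eq_zero,
    ← eq_intCast (Int.castRingHom (ZMod n)), ← eq_intCast (Int.castRingHom (ZMod n)), map_qD,
    map_qD]
  simp only [eq_intCast, (ZMod.intCast_eq_intCast_iff_dvd_sub S' S n).mpr hS,
    (ZMod.intCast_eq_intCast_iff_dvd_sub T' T n).mpr hT]

/-- Simultaneous congruences modulo powers of distinct primes. -/
theorem exists_crt (P : Finset ℕ) (hP : ∀ p ∈ P, p.Prime) (e : ℕ) (f : ℕ → ℤ) :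
    ∃ x : ℤ, ∀ p ∈ P, (p : ℤ) ^ e ∣ x - f p := by
  classical
  induction P using Finset.induction_on with
  | empty => exact ⟨0, by simp⟩
  | @insert p P hp ih =>
    obtain ⟨x, hx⟩ := ih fun q hq => hP q (mem_insert_of_mem hq)
    have hpp := hP p (mem_insert_self _ _)
    have hcop : IsCoprime (∏ q ∈ P, (q : ℤ) ^ e) ((p : ℤ) ^ e) := by
      refine IsCoprime.prod_left fun q hq => IsCoprime.pow ?_
      rw [Int.isCoprime_iff_nat_coprime]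
      simpa using (Nat.coprime_primes (hP q (mem_insert_of_mem hq)) hpp).mpr
        fun h => hp (h ▸ hq)
    obtain ⟨u, v, huv⟩ := hcop
    refine ⟨x + u * (∏ q ∈ P, (q : ℤ) ^ e) * (f p - x), fun q hq => ?_⟩
    rcases mem_insert.mp hq with rfl | hq
    · exact ⟨v * (x - f q), by linear_combination (f q - x) * huv⟩
    · rw [add_sub_right_comm]
      exact dvd_add (hx q hq)
        (((dvd_prod_of_mem (fun i : ℕ => (i : ℤ) ^ e) hq).mul_left u).mul_right _)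

/-- At a bad odd prime with valuation of the discriminant even, the class `(3 c₆ + q, c₄)`. -/
theorem qD_shift {c₄ c₆ Δ : ℤ} (hrel : c₄ ^ 3 - c₆ ^ 2 = 1728 * Δ) {q : ℕ} (hq : q.Prime)
    (hq2 : q ≠ 2) (h4 : ¬ (q : ℤ) ∣ c₄) (hΔ : (q : ℤ) ^ 2 ∣ Δ) {S T : ℤ}
    (hS : (q : ℤ) ^ 2 ∣ S - (3 * c₆ + q)) (hT : (q : ℤ) ^ 2 ∣ T - c₄) :
    (q : ℤ) ∣ qD c₄ c₆ S T ∧ ¬ (q : ℤ) ^ 2 ∣ qD c₄ c₆ S T := by
  have hqi := Nat.prime_iff_prime_int.mp hq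
  have hc := qD_congr c₄ c₆ (n := q ^ 2) (by exact_mod_cast hS) (by exact_mod_cast hT)
  push_cast at hc
  have e : qD c₄ c₆ (3 * c₆ + q) c₄ - q * (64 * c₆ ^ 3) =
      (q : ℤ) ^ 2 * (6 * (3 * c₆) ^ 2 + 4 * (3 * c₆) * q + q ^ 2 - 6 * c₄ * c₄ ^ 2) +
        1728 * Δ * (-(84 * c₆ ^ 2) - 3 * (1728 * Δ) - 44 * (q : ℤ) * c₆) := by
    simp only [qD]
    linear_combination (-84 * c₆ ^ 2 - 44 * (q : ℤ) * c₆ - 3 * 1728 * Δ - 3 * (c₄ ^ 3 - c₆ ^ 2)) *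
      hrel
  have h2 : (q : ℤ) ^ 2 ∣ qD c₄ c₆ S T - q * (64 * c₆ ^ 3) := by
    rw [← sub_add_sub_cancel _ (qD c₄ c₆ (3 * c₆ + q) c₄)]
    refine dvd_add hc ?_
    rw [e]
    exact dvd_add (dvd_mul_right _ _) ((hΔ.mul_left _).mul_right _)
  have h6 : ¬ (q : ℤ) ∣ 64 * c₆ ^ 3 := by
    intro h
    rcases hqi.dvd_mul.mp h with h | h
    · have : q ∣ 2 ^ 6 := by exact_mod_cast h
      exact hq2 ((Nat.prime_dvd_prime_iff_eq hq Nat.prime_two).mp (hq.dvd_of_dvd_pow this))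
    · refine h4 (hqi.dvd_of_dvd_pow (n := 3) ?_)
      rw [show c₄ ^ 3 = 1728 * Δ + c₆ * c₆ by linear_combination hrel]
      exact dvd_add (((dvd_pow_self _ two_ne_zero).trans hΔ).mul_left _)
        ((hqi.dvd_of_dvd_pow h).mul_left _)
  constructor
  · exact (dvd_sub_left (dvd_mul_right _ _)).mp ((dvd_pow_self _ two_ne_zero).trans h2)
  · intro h
    have h' : (q : ℤ) ^ 2 ∣ q * (64 * c₆ ^ 3) := (dvd_sub_right h).mp h2
    rw [pow_two, mul_dvd_mul_iff_left hqi.ne_zero] at h'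
    exact h6 h'

/-- The value of `qC4` is a unit at a bad odd prime on the two classes used. -/
theorem not_dvd_qC4 {c₄ c₆ Δ : ℤ} (hrel : c₄ ^ 3 - c₆ ^ 2 = 1728 * Δ) {q : ℕ} [Fact q.Prime]
    (hq2 : q ≠ 2) (h4 : ¬ (q : ℤ) ∣ c₄) (hΔ : (q : ℤ) ∣ Δ) {S T : ℤ}
    (h : ((S : ZMod q) = 1 ∧ (T : ZMod q) = 0) ∨
      ((S : ZMod q) = 3 * c₆ ∧ (T : ZMod q) = c₄)) : ¬ (q : ℤ) ∣ qC4 c₄ c₆ S T := by
  rw [← ZMod.intCast_zmod_eq_zero_iff_dvd] at h4 hΔ ⊢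
  rw [← eq_intCast (Int.castRingHom (ZMod q)), map_qC4]
  simp only [eq_intCast]
  rcases h with ⟨hS, hT⟩ | ⟨hS, hT⟩ <;> rw [hS, hT]
  · rw [qC4_one_zero]; exact h4
  · have hr : (c₄ : ZMod q) ^ 3 = (c₆ : ZMod q) ^ 2 := by
      rw [← sub_eq_zero, cast_rel hrel, hΔ, mul_zero]
    have e : qC4 (c₄ : ZMod q) c₆ (3 * c₆) c₄ =
        256 * (c₄ : ZMod q) * (c₆ : ZMod q) ^ 4 := by
      simp only [qC4]
      linear_combination ((c₄ : ZMod q) * (67 * (c₆ : ZMod q) ^ 2 - 3 * (c₄ : ZMod q) ^ 3)) * hr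
    have h2 : (2 : ZMod q) ≠ 0 := by
      rw [show (2 : ZMod q) = ((2 : ℕ) : ZMod q) by norm_num, Ne, ZMod.natCast_eq_zero_iff,
        Nat.prime_dvd_prime_iff_eq Fact.out Nat.prime_two]
      exact hq2
    have h6 : (c₆ : ZMod q) ≠ 0 := fun h0 => h4 (eq_zero_of_pow_eq_zero (n := 3) (by
      rw [hr, h0, zero_pow two_ne_zero]))
    rw [e, show (256 : ZMod q) = 2 ^ 8 by norm_num]
    exact mul_ne_zero (mul_ne_zero (pow_ne_zero _ h2) h4) (pow_ne_zero _ h6)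

/-- A primitive direction on which `Δ * qD` is negative. -/
theorem exists_direction {c₄ c₆ Δ : ℤ} (hrel : c₄ ^ 3 - c₆ ^ 2 = 1728 * Δ) (hΔ : Δ ≠ 0) :
    ∃ α β x y : ℤ, x * α + y * β = 1 ∧ Δ * qD c₄ c₆ α β < 0 := by
  rcases lt_or_gt_of_ne hΔ with h | h
  · exact ⟨1, 0, 1, 0, by norm_num, by rw [qD_one_zero, mul_one]; exact h⟩
  · have hne : c₄ ≠ 0 := by
      intro h0
      rw [h0] at hrel
      nlinarith [sq_nonneg c₆]
    obtain ⟨α, β, hg, ha, hb⟩ := Int.exists_gcd_one (m := -c₆) (n := c₄)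
      (Int.gcd_pos_of_ne_zero_right _ hne)
    obtain ⟨x, y, hxy⟩ := Int.isCoprime_iff_gcd_eq_one.mpr hg
    refine ⟨α, β, x, y, hxy, ?_⟩
    have e : qD c₄ c₆ (-c₆) c₄ = -(1728 * Δ * (4 * c₆ ^ 2 + 3 * (1728 * Δ))) := by
      simp only [qD]
      linear_combination (-(4 * c₆ ^ 2) - 3 * (c₄ ^ 3 - c₆ ^ 2) - 3 * (1728 * Δ)) * hrel
    have e' : qD c₄ c₆ (-c₆) c₄ = (Int.gcd (-c₆) c₄ : ℤ) ^ 4 * qD c₄ c₆ α β := by
      rw [← qD_smul, mul_comm _ α, mul_comm _ β, ← ha, ← hb]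
    by_contra hcon
    have h1 : 0 ≤ qD c₄ c₆ α β := nonneg_of_mul_nonneg_right (not_lt.mp hcon) h
    have h2 : 0 < 1728 * Δ * (4 * c₆ ^ 2 + 3 * (1728 * Δ)) := by positivity
    have h3 : 0 ≤ (Int.gcd (-c₆) c₄ : ℤ) ^ 4 * qD c₄ c₆ α β :=
      mul_nonneg (pow_nonneg (Int.natCast_nonneg _) 4) h1
    rw [← e', e] at h3
    linarith

/-- The parameters on the pencil. -/
theorem exists_pencil_params {c₄ c₆ Δ : ℤ} (hrel : c₄ ^ 3 - c₆ ^ 2 = 1728 * Δ) (hΔ : Δ ≠ 0)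
    (hss : ∀ p : ℕ, p.Prime → (p : ℤ) ∣ Δ → ¬ (p : ℤ) ∣ c₄) (h2 : (2 : ℤ) ∣ Δ) (N : ℕ)
    {R : ℕ} (hR0 : R ≠ 0) (hR : ∀ p : ℕ, p.Prime → p ∣ R → ¬ (p : ℤ) ∣ Δ) {L : Finset ℕ}
    (hL : ∀ l ∈ L, l.Prime ∧ l ≠ 2 ∧ l ≠ 3 ∧ ¬ (l : ℤ) ∣ Δ ∧ ¬ l ∣ R) (x : ℕ → ℤ)
    (hx : ∀ l ∈ L, (l : ℤ) ∣ qD c₄ c₆ (x l) 1 ∧ ¬ (l : ℤ) ^ 2 ∣ qD c₄ c₆ (x l) 1) :
    ∃ S T : ℤ, IsCoprime S T ∧ Δ * qD c₄ c₆ S T < 0 ∧
      (¬ (2 : ℤ) ∣ T ∧ (2 : ℤ) ^ N ∣ c₄ * S + c₆ * T) ∧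
      (¬ (3 : ℤ) ∣ Δ → (3 : ℤ) ^ 6 ∣ S - 1 ∧ (3 : ℤ) ^ 6 ∣ T) ∧
      (∀ p : ℕ, p.Prime → p ∣ R → (p : ℤ) ∣ T ∧ ¬ (p : ℤ) ∣ qD c₄ c₆ S T) ∧
      (∀ q : ℕ, q.Prime → q ≠ 2 → (q : ℤ) ∣ Δ →
        ¬ (q : ℤ) ∣ qC4 c₄ c₆ S T ∧ Odd (padicValInt q (Δ * qD c₄ c₆ S T ^ 3))) ∧
      (∀ q : ℕ, q.Prime → q ≠ 2 → q ≠ 3 → ¬ (q : ℤ) ∣ Δ → ¬ (q : ℤ) ^ 2 ∣ qD c₄ c₆ S T) ∧
      ∀ l ∈ L, (l : ℤ) ∣ qD c₄ c₆ S T := by
  classical
  let P : Finset ℕ := (6 * Δ.natAbs * (R * ∏ l ∈ L, l)).primeFactors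
  have hP : ∀ p : ℕ, p ∈ P ↔ p.Prime ∧ (p = 2 ∨ p = 3 ∨ (p : ℤ) ∣ Δ ∨ p ∣ R ∨ p ∈ L) := by
    intro p
    simp only [P, Nat.mem_primeFactors]
    constructor
    · rintro ⟨hp, hd, -⟩
      refine ⟨hp, ?_⟩
      rcases hp.dvd_mul.mp hd with hd | hd
      · rcases hp.dvd_mul.mp hd with hd | hd
        · rcases hp.dvd_mul.mp (show p ∣ 2 * 3 from hd) with hd | hd
          · exact Or.inl ((Nat.prime_dvd_prime_iff_eq hp Nat.prime_two).mp hd)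
          · exact Or.inr (Or.inl ((Nat.prime_dvd_prime_iff_eq hp Nat.prime_three).mp hd))
        · exact Or.inr (Or.inr (Or.inl (Int.natCast_dvd.mpr hd)))
      · rcases hp.dvd_mul.mp hd with hd | hd
        · exact Or.inr (Or.inr (Or.inr (Or.inl hd)))
        · obtain ⟨l, hl, hd⟩ := hp.prime.exists_mem_finset_dvd hd
          exact Or.inr (Or.inr (Or.inr (Or.inr
            ((Nat.prime_dvd_prime_iff_eq hp (hL l hl).1).mp hd ▸ hl))))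
    · rintro ⟨hp, h⟩
      refine ⟨hp, ?_, mul_ne_zero (by positivity)
        (mul_ne_zero hR0 (prod_ne_zero_iff.mpr fun l hl => (hL l hl).1.ne_zero))⟩
      rcases h with rfl | rfl | h | h | h
      · exact ((by norm_num : 2 ∣ 6).mul_right _).mul_right _
      · exact ((by norm_num : 3 ∣ 6).mul_right _).mul_right _
      · exact ((Int.natCast_dvd.mp h).mul_left _).mul_right _
      · exact (h.mul_right _).mul_left _
      · exact ((dvd_prod_of_mem (fun l : ℕ => l) h).mul_left _).mul_left _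
  have hPp : ∀ p ∈ P, p.Prime := fun p hp => ((hP p).mp hp).1
  let e := N + 8
  let fS : ℕ → ℤ := fun p => if p = 2 then -c₆ else if p ∈ L then x p else
    if (p : ℤ) ∣ Δ ∧ Even (padicValInt p Δ) then 3 * c₆ + p else 1
  let fT : ℕ → ℤ := fun p => if p = 2 then c₄ else if p ∈ L then 1 else
    if (p : ℤ) ∣ Δ ∧ Even (padicValInt p Δ) then c₄ else 0
  obtain ⟨s0, hs0⟩ := exists_crt P hPp e fS
  obtain ⟨t0, ht0⟩ := exists_crt P hPp e fT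
  let M : ℕ := ∏ p ∈ P, p ^ e
  have hM : 0 < M := prod_pos fun p hp => pow_pos (hPp p hp).pos _
  have hdvdM : ∀ p ∈ P, p ^ e ∣ M := fun p hp => dvd_prod_of_mem (fun i => i ^ e) hp
  have hmemM : ∀ q : ℕ, q.Prime → (q ∣ M ↔ q ∈ P) := by
    intro q hq
    refine ⟨fun h => ?_, fun h => (dvd_pow_self q (by omega)).trans (hdvdM q h)⟩
    obtain ⟨p, hp, hqp⟩ := hq.prime.exists_mem_finset_dvd h
    rwa [(Nat.prime_dvd_prime_iff_eq hq (hPp p hp)).mp (hq.dvd_of_dvd_pow hqp)]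
  have h2P : 2 ∈ P := (hP 2).mpr ⟨Nat.prime_two, Or.inl rfl⟩
  have h3P : 3 ∈ P := (hP 3).mpr ⟨Nat.prime_three, Or.inr (Or.inl rfl)⟩
  have h6 : 6 ∣ M := (by norm_num : 6 = 2 * 3) ▸ (by norm_num : Nat.Coprime 2 3).mul_dvd_of_dvd_of_dvd
    ((hmemM 2 Nat.prime_two).mpr h2P) ((hmemM 3 Nat.prime_three).mpr h3P)
  have hgood : ∀ q : ℕ, q.Prime → ¬ q ∣ M → Sieve.GoodAt (qDCoeff c₄ c₆) q := by
    intro q hq hqM
    have : Fact q.Prime := ⟨hq⟩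
    rw [hmemM q hq, hP] at hqM
    exact goodAt_qDCoeff hrel (fun h => hqM ⟨hq, Or.inl h⟩)
      (fun h => hqM ⟨hq, Or.inr (Or.inl h)⟩) fun h => hqM ⟨hq, Or.inr (Or.inr (Or.inl h))⟩
  have h42 : ¬ (2 : ℤ) ∣ c₄ := hss 2 Nat.prime_two (by exact_mod_cast h2)
  have hcop : ∀ q : ℕ, q.Prime → q ∣ M → ¬ ((q : ℤ) ∣ s0 ∧ (q : ℤ) ∣ t0) := by
    rintro q hq hqM ⟨hs, ht⟩
    have hqP := (hmemM q hq).mp hqM
    have he : e ≠ 0 := by omega
    have hfS : (q : ℤ) ∣ fS q :=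
      (dvd_sub_right hs).mp ((dvd_pow_self _ he).trans (hs0 q hqP))
    have hfT : (q : ℤ) ∣ fT q :=
      (dvd_sub_right ht).mp ((dvd_pow_self _ he).trans (ht0 q hqP))
    simp only [fS, fT] at hfS hfT
    split_ifs at hfS hfT with hq2 hql hev
    · subst hq2; exact h42 (by exact_mod_cast hfT)
    · exact hq.not_dvd_one (by exact_mod_cast hfT)
    · exact hss q hq hev.1 hfT
    · exact hq.not_dvd_one (by exact_mod_cast hfS)
  obtain ⟨α, β, u, w, hxy, hdir⟩ := exists_direction hrel hΔ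
  obtain ⟨S, T, hST, hSM, hTM, -, -, -, hsign, hsq⟩ := Sieve.exists_squarefreeAway_sign
    (qDCoeff c₄ c₆) hM h6 hgood s0 t0 hcop hxy
    (fun h => by rw [val_qDCoeff, Int.cast_id, Int.cast_id] at h; simp [h] at hdir) 0 0
  simp only [val_qDCoeff, Int.cast_id] at hsign hsq
  have hclass : ∀ p ∈ P, ∀ k ≤ e, (p : ℤ) ^ k ∣ S - fS p ∧ (p : ℤ) ^ k ∣ T - fT p := by
    intro p hp k hk
    have hpM : (p : ℤ) ^ k ∣ (M : ℤ) := by
      exact_mod_cast (pow_dvd_pow p hk).trans (hdvdM p hp)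
    constructor
    · rw [← sub_add_sub_cancel S s0]
      exact dvd_add (hpM.trans hSM) ((pow_dvd_pow _ hk).trans (hs0 p hp))
    · rw [← sub_add_sub_cancel T t0]
      exact dvd_add (hpM.trans hTM) ((pow_dvd_pow _ hk).trans (ht0 p hp))
  have hneg : Δ * qD c₄ c₆ S T < 0 := by
    rcases mul_pos_iff.mp hsign with ⟨h1, h2⟩ | ⟨h1, h2⟩ <;>
      rcases mul_neg_iff.mp hdir with ⟨h3, h4⟩ | ⟨h3, h4⟩ <;>
      first
        | exact mul_neg_of_pos_of_neg h3 h1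
        | exact mul_neg_of_neg_of_pos h3 h1
        | linarith
  have hqD0 : qD c₄ c₆ S T ≠ 0 := fun h => by simp [h] at hneg
  have hone : ∀ p ∈ P, p ≠ 2 → p ∉ L → ¬ ((p : ℤ) ∣ Δ ∧ Even (padicValInt p Δ)) →
      ∀ k ≤ e, (p : ℤ) ^ k ∣ S - 1 ∧ (p : ℤ) ^ k ∣ T := by
    intro p hp hp2 hpl hev k hk
    obtain ⟨h1, h2⟩ := hclass p hp k hk
    simp only [fS, fT, if_neg hp2, if_neg hpl, if_neg hev, sub_zero] at h1 h2
    exact ⟨h1, h2⟩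
  have hlqD : ∀ l ∈ L, (l : ℤ) ∣ qD c₄ c₆ S T ∧ ¬ (l : ℤ) ^ 2 ∣ qD c₄ c₆ S T := by
    intro l hl
    obtain ⟨hlx, hlx2⟩ := hx l hl
    obtain ⟨h1, h2⟩ := hclass l ((hP l).mpr ⟨(hL l hl).1, Or.inr (Or.inr (Or.inr (Or.inr hl)))⟩)
      2 (by omega)
    simp only [fS, fT, if_neg (hL l hl).2.1, if_pos hl] at h1 h2
    have h := qD_congr c₄ c₆ (n := l ^ 2) (by exact_mod_cast h1) (by exact_mod_cast h2)
    push_cast at h
    exact ⟨(dvd_sub_left hlx).mp ((dvd_pow_self _ two_ne_zero).trans h),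
      fun hd => hlx2 ((dvd_sub_right hd).mp h)⟩
  have hunit : ∀ p ∈ P, p ≠ 2 → p ∉ L → ¬ ((p : ℤ) ∣ Δ ∧ Even (padicValInt p Δ)) →
      ¬ (p : ℤ) ∣ qD c₄ c₆ S T := by
    intro p hp hp2 hpl hev hd
    obtain ⟨h1, h2⟩ := hone p hp hp2 hpl hev 1 (by omega)
    rw [pow_one] at h1 h2
    have h := qD_congr c₄ c₆ (T := T) (T' := 0) h1 (by simpa using h2)
    rw [qD_one_zero, dvd_sub_right hd] at h
    exact (hPp p hp).not_dvd_one (by exact_mod_cast h)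
  refine ⟨S, T, hST, hneg, ⟨?_, ?_⟩, ?_, ?_, ?_, ?_, fun l hl => (hlqD l hl).1⟩
  · intro hd
    obtain ⟨-, h⟩ := hclass 2 h2P 1 (by omega)
    simp only [fT, if_pos, pow_one, Nat.cast_ofNat] at h
    exact h42 ((dvd_sub_right hd).mp h)
  · obtain ⟨h1, h2'⟩ := hclass 2 h2P N (by omega)
    simp only [fS, fT, if_pos, Nat.cast_ofNat] at h1 h2'
    rw [show c₄ * S + c₆ * T = c₄ * (S - -c₆) + c₆ * (T - c₄) by ring]
    exact dvd_add (h1.mul_left _) (h2'.mul_left _)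
  · intro h3
    exact_mod_cast hone 3 h3P (by norm_num) (fun h => (hL 3 h).2.2.1 rfl) (fun h => h3 (by exact_mod_cast h.1)) 6 (by omega)
  · intro p hp hpR
    have hpΔ := hR p hp hpR
    have hpP := (hP p).mpr ⟨hp, Or.inr (Or.inr (Or.inr (Or.inl hpR)))⟩
    have hpl : p ∉ L := fun h => (hL p h).2.2.2.2 hpR
    have hp2 : p ≠ 2 := fun h => hpΔ (by subst h; exact_mod_cast h2)
    exact ⟨by simpa using (hone p hpP hp2 hpl (fun h => hpΔ h.1) 1 (by omega)).2,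
      hunit p hpP hp2 hpl fun h => hpΔ h.1⟩
  · intro q hq hq2 hqΔ
    have : Fact q.Prime := ⟨hq⟩
    have hqP := (hP q).mpr ⟨hq, Or.inr (Or.inr (Or.inl hqΔ))⟩
    have h4 := hss q hq hqΔ
    have hql : q ∉ L := fun h => (hL q h).2.2.2.1 hqΔ
    have hcast : ∀ {z w : ℤ}, (q : ℤ) ∣ z - w → (z : ZMod q) = (w : ZMod q) := fun h =>
      ((ZMod.intCast_eq_intCast_iff_dvd_sub _ _ q).mpr h).symm
    have hval : padicValInt q (Δ * qD c₄ c₆ S T ^ 3) =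
        padicValInt q Δ + 3 * padicValInt q (qD c₄ c₆ S T) := by
      rw [pow_succ, pow_two, padicValInt.mul hΔ (mul_ne_zero (mul_ne_zero hqD0 hqD0) hqD0),
        padicValInt.mul (mul_ne_zero hqD0 hqD0) hqD0, padicValInt.mul hqD0 hqD0]
      ring
    by_cases hev : Even (padicValInt q Δ)
    · obtain ⟨h1, h2⟩ := hclass q hqP 2 (by omega)
      simp only [fS, fT, if_neg hq2, if_neg hql, if_pos (And.intro hqΔ hev)] at h1 h2
      have hsqd : (q : ℤ) ^ 2 ∣ Δ := by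
        rw [padicValInt_dvd_iff]
        refine Or.inr ?_
        have : padicValInt q Δ ≠ 0 := fun h => by
          have := (padicValInt_dvd_iff 1 Δ).mp (by simpa using hqΔ)
          omega
        obtain ⟨k, hk⟩ := hev
        omega
      obtain ⟨hd1, hd2⟩ := qD_shift hrel hq hq2 h4 hsqd h1 h2
      refine ⟨not_dvd_qC4 hrel hq2 h4 hqΔ (Or.inr ⟨?_, hcast ((dvd_pow_self _ two_ne_zero).trans h2)⟩),
        ?_⟩
      · rw [hcast ((dvd_pow_self _ two_ne_zero).trans h1)]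
        push_cast
        rw [ZMod.natCast_self, add_zero]
      · rw [hval]
        have hone' : padicValInt q (qD c₄ c₆ S T) = 1 := by
          have e1 := (padicValInt_dvd_iff 1 (qD c₄ c₆ S T)).mp (by simpa using hd1)
          have e2 : ¬ 2 ≤ padicValInt q (qD c₄ c₆ S T) := fun h =>
            hd2 ((padicValInt_dvd_iff 2 _).mpr (Or.inr h))
          have := e1.resolve_left hqD0
          omega
        rw [hone', Nat.odd_iff]
        rw [Nat.even_iff] at hev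
        omega
    · obtain ⟨h1, h2⟩ := hone q hqP hq2 hql (fun h => hev h.2) 1 (by omega)
      rw [pow_one] at h1 h2
      refine ⟨not_dvd_qC4 hrel hq2 h4 hqΔ (Or.inl ⟨by simpa using hcast h1,
        (ZMod.intCast_zmod_eq_zero_iff_dvd _ _).mpr h2⟩), ?_⟩
      rw [hval, padicValInt.eq_zero_of_not_dvd (hunit q hqP hq2 hql fun h => hev h.2)]
      simpa using Nat.not_even_iff_odd.mp hev
  · intro q hq hq2 hq3 hqΔ hd
    by_cases hql : q ∈ L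
    · exact (hlqD q hql).2 hd
    by_cases hqM : q ∣ M
    · refine hunit q ((hmemM q hq).mp hqM) hq2 hql (fun h => hqΔ h.1) ?_
      exact (dvd_pow_self _ two_ne_zero).trans hd
    · exact hsq q hq hqM hd

end Fermat.Agent.Two.Family
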