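import Mathlib
import Fermat.Agent.Arith.Chebotarev.Main
import Fermat.Agent.Arith.RootsOfUnity
import Fermat.Agent.Mazur.Large.Line

/-!
# Primes at which a polynomial has a root, with a prescribed class modulo `N`
-/

set_option autoImplicit false

noncomputable section

namespace Fermat.Agent.Two.Family

open Polynomial IsLocalRing

local notation "Qb" => AlgebraicClosure ℚ

/-- In a field of characteristic `ℓ` the solutions of `x ^ ℓ = x` are the integers. -/
theorem exists_natCast_of_pow_eq {K : Type*} [Field K] {ℓ : ℕ} (hℓ : ℓ.Prime) [CharP K ℓ] {x : K}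
    (hx : x ^ ℓ = x) : ∃ n : ℕ, x = n := by
  classical
  have : Fact ℓ.Prime := ⟨hℓ⟩
  by_contra h
  push Not at h
  set T : Finset K := insert x ((Finset.range ℓ).image fun n : ℕ => (n : K)) with hT
  have hne : (X ^ ℓ - X : K[X]) ≠ 0 := FiniteField.X_pow_card_sub_X_ne_zero K hℓ.one_lt
  have hsub : T.val ⊆ (X ^ ℓ - X : K[X]).roots := fun y hy => by
    rw [mem_roots hne, IsRoot, eval_sub, eval_pow, eval_X, sub_eq_zero]
    rw [hT, Finset.mem_val] at hy
    rcases Finset.mem_insert.mp hy with rfl | hy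
    · exact hx
    · obtain ⟨n, -, rfl⟩ := Finset.mem_image.mp hy
      exact map_natCast (frobenius K ℓ) n
  have h1 := (Multiset.le_iff_subset T.nodup).mpr hsub
  have h2 := (Multiset.card_le_card h1).trans (card_roots' _)
  rw [FiniteField.X_pow_card_sub_X_natDegree_eq K hℓ.one_lt] at h2
  have h3 : T.card = ℓ + 1 := by
    rw [hT, Finset.card_insert_of_notMem (by
      simp only [Finset.mem_image, not_exists, not_and]
      exact fun n _ e => h n e.symm), Finset.card_image_of_injOn, Finset.card_range]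
    intro a ha b hb e
    exact CharP.natCast_injOn_Iio K ℓ (by simpa using ha) (by simpa using hb) e
  change T.card ≤ ℓ at h2
  omega

/-- If `g` fixes a root of a monic `P` and raises `N`-th roots of unity to the power `a`, then `P`
has a root modulo some prime in the class of `a` modulo `N`, outside a given finite set. -/
theorem exists_root_prime_of_fixed (P : ℤ[X]) (hP : P.Monic) (g : Qb ≃ₐ[ℚ] Qb) {r : Qb}
    (hr : eval₂ (Int.castRingHom Qb) r P = 0) (hgr : g r = r) {N : ℕ} (hN : 0 < N) {a : ℕ}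
    (hga : ∀ z : Qb, z ^ N = 1 → g z = z ^ a) (S : Finset ℕ) :
    ∃ ℓ : ℕ, ℓ.Prime ∧ ℓ ∉ S ∧ ℓ % N = a % N ∧ ∃ r : ℤ, (ℓ : ℤ) ∣ P.eval r := by
  classical
  have hrint : IsIntegral ℤ r := ⟨P, hP, hr⟩
  have : NeZero N := ⟨hN.ne'⟩
  have : NeZero (N : Qb) := ⟨Nat.cast_ne_zero.mpr hN.ne'⟩
  obtain ⟨z, hz⟩ := IsAlgClosed.exists_root (cyclotomic N Qb)
    (degree_cyclotomic_pos N _ hN).ne'
  have hz' : IsPrimitiveRoot z N := isRoot_cyclotomic_iff.mp hz
  let L : IntermediateField ℚ Qb := IntermediateField.adjoin ℚ {r, z}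
  have : FiniteDimensional ℚ L := IntermediateField.finiteDimensional_adjoin fun x _ =>
    (Algebra.IsAlgebraic.isAlgebraic x).isIntegral
  let L' : IntermediateField ℚ Qb := IntermediateField.normalClosure ℚ L Qb
  have : Normal ℚ L' := normalClosure.normal ℚ L Qb
  have : IsGalois ℚ L' := ⟨⟩
  obtain ⟨ℓ, hℓ, hℓS, A, hA, σ, hσ, heq⟩ :=
    Arith.Chebotarev.exists_frobenius_restrict_eq L' g (S ∪ N.primeFactors)
  rw [Finset.mem_union, not_or] at hℓS
  have hℓN : ¬ ℓ ∣ N := fun h => hℓS.2 (Nat.mem_primeFactors.mpr ⟨hℓ, h, hN.ne'⟩)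
  have hfix : ∀ x ∈ L, σ x = g x := fun x hx => by
    have h1 := AlgEquiv.restrictNormal_commutes σ L' ⟨x, L.le_normalClosure hx⟩
    have h2 := AlgEquiv.restrictNormal_commutes g L' ⟨x, L.le_normalClosure hx⟩
    rw [show AlgEquiv.restrictNormal σ L' = AlgEquiv.restrictNormalHom L' σ from rfl, heq] at h1
    exact h1.symm.trans h2
  have hσz : σ z = z ^ a := (hfix z (IntermediateField.subset_adjoin _ _ (by simp))).trans
    (hga z hz'.pow_eq_one)
  have hσr : σ r = r := (hfix r (IntermediateField.subset_adjoin _ _ (by simp))).trans hgr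
  refine ⟨ℓ, hℓ, hℓS.1, ?_, ?_⟩
  · have h := Arith.frobenius_root hA hℓ hσ hz'.pow_eq_one hℓN
    rw [hσz] at h
    have hmod : z ^ (ℓ % N) = z ^ (a % N) := by
      rw [← pow_eq_pow_mod ℓ hz'.pow_eq_one, ← pow_eq_pow_mod a hz'.pow_eq_one]
      exact h.symm
    exact hz'.pow_inj (Nat.mod_lt _ hN) (Nat.mod_lt _ hN) hmod
  · have hrA : r ∈ A := Arith.mem_of_isIntegral A hrint
    have := Arith.residueField_charP hA hℓ
    have hres : residue A ⟨r, hrA⟩ ^ ℓ = residue A ⟨r, hrA⟩ := by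
      rw [← map_pow]
      refine (Arith.residue_eq_iff.mpr ?_).symm
      have h := (Arith.isFrobeniusAt_iff hA hℓ).mp hσ r hrint
      rw [hσr] at h
      simpa using h
    obtain ⟨n, hn⟩ := exists_natCast_of_pow_eq hℓ hres
    refine ⟨n, (CharP.intCast_eq_zero_iff (ResidueField A) ℓ _).mp ?_⟩
    have hA' : eval₂ (Int.castRingHom A) ⟨r, hrA⟩ P = 0 := by
      apply Subtype.val_injective
      show A.subtype (eval₂ (Int.castRingHom A) ⟨r, hrA⟩ P) = A.subtype 0
      rw [map_zero, hom_eval₂, RingHom.ext_int (A.subtype.comp (Int.castRingHom A)) (Int.castRingHom Qb)]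
      exact hr
    have h0 := congrArg (residue A) hA'
    rw [map_zero, hom_eval₂, hn, RingHom.ext_int ((residue A).comp (Int.castRingHom A))
      (Int.castRingHom (ResidueField A))] at h0
    rw [← h0, ← eq_intCast (Int.castRingHom (ResidueField A)), ← eval₂_at_apply, eq_intCast,
      Int.cast_natCast]

/-- A monic polynomial has a root modulo some prime in the class of one modulo `N`, avoiding a
given finite set. -/
theorem exists_split_prime (P : ℤ[X]) (hP : P.Monic) (hdeg : 0 < P.natDegree) {N : ℕ} (hN : 0 < N)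
    (S : Finset ℕ) :
    ∃ ℓ : ℕ, ℓ.Prime ∧ ℓ ∉ S ∧ ℓ % N = 1 % N ∧ ∃ r : ℤ, (ℓ : ℤ) ∣ P.eval r := by
  obtain ⟨r, hr⟩ := IsAlgClosed.exists_root (P.map (Int.castRingHom Qb)) (by
    rw [degree_eq_natDegree (hP.map _).ne_zero, hP.natDegree_map]
    exact_mod_cast hdeg.ne')
  rw [IsRoot, eval_map] at hr
  exact exists_root_prime_of_fixed P hP 1 hr rfl hN (fun z _ => (pow_one z).symm) S

/-- A monic polynomial with a real root has a root modulo some prime in the class of `-1`
modulo `N`, avoiding a given finite set: complex conjugation fixes that root. -/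
theorem exists_real_root_prime (P : ℤ[X]) (hP : P.Monic) {x : ℝ}
    (hx : eval₂ (Int.castRingHom ℝ) x P = 0) {N : ℕ} (hN : 0 < N) (S : Finset ℕ) :
    ∃ ℓ : ℕ, ℓ.Prime ∧ ℓ ∉ S ∧ ℓ % N = (N - 1) % N ∧ ∃ r : ℤ, (ℓ : ℤ) ∣ P.eval r := by
  classical
  let ι : Qb →ₐ[ℚ] ℂ := IsAlgClosed.lift
  obtain ⟨c, hc⟩ := Mazur.Large.exists_conj ι
  have hroot : (x : ℂ) ∈ (P.map (Int.castRingHom ℂ)).roots := by
    rw [mem_roots ((hP.map _).ne_zero), IsRoot, eval_map]
    have h := congrArg Complex.ofRealHom hx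
    rw [map_zero, hom_eval₂, RingHom.ext_int (Complex.ofRealHom.comp (Int.castRingHom ℝ))
      (Int.castRingHom ℂ)] at h
    exact h
  have hsplit := (IsAlgClosed.splits (P.map (Int.castRingHom Qb))).roots_map (ι : Qb →+* ℂ)
  rw [Polynomial.map_map, RingHom.ext_int ((ι : Qb →+* ℂ).comp (Int.castRingHom Qb))
    (Int.castRingHom ℂ)] at hsplit
  rw [hsplit, Multiset.mem_map] at hroot
  obtain ⟨r, hr, hrx⟩ := hroot
  rw [mem_roots ((hP.map _).ne_zero), IsRoot, eval_map] at hr
  refine exists_root_prime_of_fixed P hP c hr ((ι : Qb →+* ℂ).injective ?_) hN (fun z hz => ?_) S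
  · show ι (c r) = ι r
    rw [hc, show ι r = (x : ℂ) from hrx, Complex.conj_ofReal]
  · refine (ι : Qb →+* ℂ).injective ?_
    show ι (c z) = ι (z ^ (N - 1))
    rw [hc, map_pow]
    have h1 : ι z ^ N = 1 := by rw [← map_pow, hz, map_one]
    rw [← Complex.inv_eq_conj (Complex.norm_eq_one_of_pow_eq_one h1 hN.ne')]
    refine inv_eq_of_mul_eq_one_right ?_
    rw [← pow_succ', Nat.sub_add_cancel hN, h1]

end Fermat.Agent.Two.Family
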