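import Mathlib
import Fermat.Agent.Two.Family.Forms

/-!
# The 3-torsion sections of the pencil

For a curve over `(r, s)` the nonzero points of order three are `±P ω` and `±Q k`, `k ^ 3 = 1`,
with explicit coordinates, and `P ω + Q k = Q (ω ^ 2 * k)`.
-/

set_option autoImplicit false
set_option linter.unusedSectionVars false

namespace Fermat.Agent.Two.Family

open WeierstrassCurve

variable {K : Type*} [Field K] [CharZero K] [DecidableEq K]

/-- A curve lying over the vector `(r, s)`. -/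
structure Fib (E : WeierstrassCurve K) (r s : K) : Prop where
  c4_eq : E.c₄ = hC4 r s
  c6_eq : E.c₆ = hC6 r s
  hD_ne : hD r s ≠ 0

/-- A primitive cube root of unity. -/
structure IsOmega (w : K) : Prop where
  eq_zero : w ^ 2 + w + 1 = 0

variable {E : WeierstrassCurve K} {r s : K}

theorem IsOmega.cube {w : K} (hw : IsOmega w) : w ^ 3 = 1 := by
  linear_combination (w - 1) * hw.eq_zero

theorem IsOmega.sq_eq {w : K} (hw : IsOmega w) : (1 + 2 * w) ^ 2 = -3 := by
  linear_combination 4 * hw.eq_zero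

theorem IsOmega.ne_zero {w : K} (hw : IsOmega w) : 1 + 2 * w ≠ 0 := by
  intro h
  have := hw.sq_eq
  rw [h] at this
  norm_num at this

theorem IsOmega.sq {w : K} (hw : IsOmega w) : IsOmega (w ^ 2) :=
  ⟨by linear_combination (w ^ 2 - w + 1) * hw.eq_zero⟩

/-- Abscissa of `P` in the short model. -/
def pX (r : K) : K := -9 * r ^ 2

/-- Ordinate of `P` in the short model. -/
def pY (w r s : K) : K := 12 * (1 + 2 * w) * (r ^ 3 - 27 * s ^ 3)

/-- Abscissa of `Q` in the short model. -/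
def qX (k r s : K) : K := 3 * (r + 6 * k * s) ^ 2

/-- Ordinate of `Q` in the short model. -/
def qY (k r s : K) : K := 108 * (k * s) * (r ^ 2 + 3 * r * (k * s) + 9 * (k * s) ^ 2)

variable (E) in
/-- The abscissa on `E` with short-model abscissa `X`. -/
def affX (X : K) : K := (X - 3 * E.b₂) / 36

variable (E) in
/-- The ordinate on `E` with short-model coordinates `(X, Y)`. -/
def affY (X Y : K) : K := (Y / 108 - E.a₁ * affX E X - E.a₃) / 2

theorem negY_affY (X Y : K) :
    E.toAffine.negY (affX E X) (affY E X Y) = affY E X (-Y) := by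
  simp only [Affine.negY, affY]; ring

theorem Fib.Δ_ne_zero (h : Fib E r s) : E.Δ ≠ 0 := by
  intro h0
  have e := E.c_relation
  rw [h0, mul_zero, h.c4_eq, h.c6_eq, hC4_cube_sub_hC6_sq] at e
  simpa [h.hD_ne] using e.symm

theorem Fib.nonsingular (h : Fib E r s) {X Y : K}
    (e : Y ^ 2 = X ^ 3 - 27 * hC4 r s * X - 54 * hC6 r s) :
    E.toAffine.Nonsingular (affX E X) (affY E X Y) := by
  refine (Affine.equation_iff_nonsingular_of_Δ_ne_zero h.Δ_ne_zero).mp
    ((Affine.equation_iff ..).mpr ?_)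
  rw [← h.c4_eq, ← h.c6_eq] at e
  simp only [affX, affY, WeierstrassCurve.b₂, WeierstrassCurve.b₄, WeierstrassCurve.b₆,
    WeierstrassCurve.c₄, WeierstrassCurve.c₆] at e ⊢
  linear_combination e / 46656

theorem pY_sq {w : K} (hw : IsOmega w) (r s : K) :
    pY w r s ^ 2 = pX r ^ 3 - 27 * hC4 r s * pX r - 54 * hC6 r s := by
  simp only [pY, pX, hC4, hC6]
  linear_combination 144 * (r ^ 3 - 27 * s ^ 3) ^ 2 * hw.sq_eq

theorem qY_sq {k : K} (hk : k ^ 3 = 1) (r s : K) :
    qY k r s ^ 2 = qX k r s ^ 3 - 27 * hC4 r s * qX k r s - 54 * hC6 r s := by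
  have e : s ^ 3 = (k * s) ^ 3 := by rw [mul_pow, hk, one_mul]
  simp only [qY, qX, hC4, hC6, show s ^ 6 = (s ^ 3) ^ 2 by ring, e]
  ring

/-- The point `P`. -/
def Fib.P (h : Fib E r s) {w : K} (hw : IsOmega w) : E.toAffine.Point :=
  .some _ _ (h.nonsingular (pY_sq hw r s))

/-- The point `Q`. -/
def Fib.Q (h : Fib E r s) {k : K} (hk : k ^ 3 = 1) : E.toAffine.Point :=
  .some _ _ (h.nonsingular (qY_sq hk r s))

theorem Fib.pY_ne_zero (h : Fib E r s) {w : K} (hw : IsOmega w) : pY w r s ≠ 0 := by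
  intro e
  simp only [pY, mul_eq_zero] at e
  rcases e with (e | e) | e
  · norm_num at e
  · exact hw.ne_zero e
  · exact h.hD_ne (by rw [hD, e, mul_zero])

theorem Fib.factor_ne_zero (h : Fib E r s) {k : K} (hk : k ^ 3 = 1) :
    r ^ 2 + 3 * r * (k * s) + 9 * (k * s) ^ 2 ≠ 0 ∧ k * s ≠ 0 := by
  have e : k * hD r s =
      k * s * (r - 3 * (k * s)) * (r ^ 2 + 3 * r * (k * s) + 9 * (k * s) ^ 2) := by
    simp only [hD]; linear_combination 27 * k * s ^ 4 * hk
  have hk0 : k ≠ 0 := by rintro rfl; norm_num at hk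
  have := mul_ne_zero hk0 h.hD_ne
  rw [e] at this
  exact ⟨(mul_ne_zero_iff.mp this).2, (mul_ne_zero_iff.mp (mul_ne_zero_iff.mp this).1).1⟩

theorem Fib.qY_ne_zero (h : Fib E r s) {k : K} (hk : k ^ 3 = 1) : qY k r s ≠ 0 :=
  mul_ne_zero (mul_ne_zero (by norm_num) (h.factor_ne_zero hk).2) (h.factor_ne_zero hk).1

theorem Fib.pX_ne_qX (h : Fib E r s) {k : K} (hk : k ^ 3 = 1) : pX r ≠ qX k r s := by
  intro e
  simp only [pX, qX] at e
  exact (h.factor_ne_zero hk).1 (mul_left_cancel₀ (show (-12 : K) ≠ 0 by norm_num)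
    (by linear_combination e))

/-- A point whose tangent has square slope `3 X` in the short model has order three. -/
theorem Fib.three_nsmul_eq_zero (h : Fib E r s) {X Y : K} (hY : Y ≠ 0)
    (e : Y ^ 2 = X ^ 3 - 27 * hC4 r s * X - 54 * hC6 r s)
    (e3 : (3 * X ^ 2 - 27 * hC4 r s) ^ 2 = 12 * X * Y ^ 2) :
    (3 : ℕ) • (Affine.Point.some _ _ (h.nonsingular e) : E.toAffine.Point) = 0 := by
  have hne : affY E X Y ≠ E.toAffine.negY (affX E X) (affY E X Y) := by
    rw [negY_affY]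
    intro e'
    simp only [affY] at e'
    exact hY (by linear_combination 108 * e')
  have hden : affY E X Y - E.toAffine.negY (affX E X) (affY E X Y) = Y / 108 := by
    rw [negY_affY]; simp only [affY]; ring
  have hL : E.toAffine.slope (affX E X) (affX E X) (affY E X Y) (affY E X Y) =
      ((3 * X ^ 2 - 27 * hC4 r s) / (2 * Y) - 3 * E.a₁) / 6 := by
    rw [Affine.slope_of_Y_ne rfl hne, hden, ← h.c4_eq]
    simp only [affX, affY, WeierstrassCurve.b₂, WeierstrassCurve.b₄, WeierstrassCurve.c₄]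
    field_simp
    ring
  have hm : ((3 * X ^ 2 - 27 * hC4 r s) / (2 * Y)) ^ 2 = 3 * X := by
    rw [div_pow, e3]; field_simp; ring
  have hx : E.toAffine.addX (affX E X) (affX E X)
      (E.toAffine.slope (affX E X) (affX E X) (affY E X Y) (affY E X Y)) = affX E X := by
    rw [hL]
    generalize (3 * X ^ 2 - 27 * hC4 r s) / (2 * Y) = m at hm ⊢
    simp only [Affine.addX, affX, WeierstrassCurve.b₂]
    linear_combination hm / 36
  rw [succ_nsmul, two_nsmul, Affine.Point.add_self_of_Y_ne hne, add_eq_zero_iff_eq_neg,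
    Affine.Point.neg_some]
  simp only [Affine.Point.some.injEq]
  refine ⟨hx, ?_⟩
  rw [negY_affY, Affine.addY, Affine.negAddY, hx, sub_self, mul_zero, zero_add, negY_affY]

theorem Fib.three_nsmul_P (h : Fib E r s) {w : K} (hw : IsOmega w) : (3 : ℕ) • h.P hw = 0 := by
  refine h.three_nsmul_eq_zero (h.pY_ne_zero hw) (pY_sq hw r s) ?_
  rw [pY_sq hw r s]
  simp only [pX, hC4, hC6]
  ring

theorem Fib.three_nsmul_Q (h : Fib E r s) {k : K} (hk : k ^ 3 = 1) : (3 : ℕ) • h.Q hk = 0 := by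
  refine h.three_nsmul_eq_zero (h.qY_ne_zero hk) (qY_sq hk r s) ?_
  have e : s ^ 3 = (k * s) ^ 3 := by rw [mul_pow, hk, one_mul]
  simp only [qY, qX, hC4, e]
  ring

theorem Fib.neg_P (h : Fib E r s) {w : K} (hw : IsOmega w) : -h.P hw = h.P hw.sq := by
  simp only [Fib.P, Affine.Point.neg_some, negY_affY, Affine.Point.some.injEq, true_and]
  congr 1
  simp only [pY]
  linear_combination -24 * (r ^ 3 - 27 * s ^ 3) * hw.eq_zero

theorem Fib.P_add_Q (h : Fib E r s) {w k : K} (hw : IsOmega w) (hk : k ^ 3 = 1)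
    (hk' : (w ^ 2 * k) ^ 3 = 1) : h.P hw + h.Q hk = h.Q hk' := by
  have hX : affX E (pX r) ≠ affX E (qX k r s) := fun e => h.pX_ne_qX hk <| by
    simp only [affX] at e; linear_combination 36 * e
  set v := k * s with hv
  have hq : (r ^ 2 + 3 * r * v + 9 * v ^ 2) ≠ 0 := (h.factor_ne_zero hk).1
  have hs3 : s ^ 3 = v ^ 3 := by rw [hv, mul_pow, hk, one_mul]
  set L := -((1 + 2 * w) * (r - 3 * v) - 9 * v) with hLdef
  have hL : E.toAffine.slope (affX E (pX r)) (affX E (qX k r s)) (affY E (pX r) (pY w r s))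
      (affY E (qX k r s) (qY k r s)) = (L - 3 * E.a₁) / 6 := by
    rw [Affine.slope_of_X_ne hX, div_eq_iff (sub_ne_zero.mpr hX)]
    simp only [affX, affY, pX, pY, qX, qY, hs3, hLdef, mul_assoc 6 k s, ← hv]
    ring
  rw [Fib.P, Fib.Q, Fib.Q, Affine.Point.add_of_X_ne hX]
  simp only [Affine.Point.some.injEq]
  have hw2 : w ^ 2 = -w - 1 := by linear_combination hw.eq_zero
  have hx : E.toAffine.addX (affX E (pX r)) (affX E (qX k r s)) ((L - 3 * E.a₁) / 6) =
      affX E (qX (w ^ 2 * k) r s) := by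
    simp only [Affine.addX, affX, WeierstrassCurve.b₂, pX, qX, mul_assoc 6 k s, ← hv,
      hw2, hLdef]
    linear_combination (r ^ 2 - 6 * r * v - 18 * v ^ 2) / 9 * hw.eq_zero
  rw [hL]
  refine ⟨hx, ?_⟩
  simp only [Affine.addY, Affine.negAddY, Affine.negY, hx]
  simp only [affX, affY, WeierstrassCurve.b₂, pX, pY, qX, qY,
    hw2, hLdef, hs3]
  linear_combination ((w + 1) * (r * v ^ 2) - r ^ 2 * v / 3 + 3 / 2 * w * v ^ 3) * hw.eq_zero

end Fermat.Agent.Two.Family
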