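import Mathlib
import Fermat.Agent.Two.Family.Sections

/-!
# The basis of the 3-torsion and the symmetries of the forms

The substitutions preserving `hC4` and `hC6` act transitively on each fibre and act on the
sections through a fixed matrix.
-/

set_option autoImplicit false
set_option linter.unusedSectionVars false

namespace Fermat.Agent.Two.Family

open WeierstrassCurve Polynomial

variable {K : Type*} [Field K] [CharZero K] [DecidableEq K]

/-- The multiples of a point killed by three. -/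
def mulHom {A : Type*} [AddCommGroup A] (P : A) (hP : (3 : ℕ) • P = 0) : ZMod 3 →+ A :=
  ZMod.lift 3 ⟨zmultiplesHom A P, by
    rw [zmultiplesHom_apply, natCast_zsmul]; exact hP⟩

theorem mulHom_one {A : Type*} [AddCommGroup A] (P : A) (hP : (3 : ℕ) • P = 0) :
    mulHom P hP 1 = P := by
  rw [mulHom, ← Int.cast_one (R := ZMod 3), ZMod.lift_coe]
  simp

theorem cube_root_cases {w k : K} (hw : IsOmega w) (hk : k ^ 3 = 1) :
    k = 1 ∨ k = w ∨ k = w ^ 2 := by
  have e : (k - 1) * ((k - w) * (k - w ^ 2)) = 0 := by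
    linear_combination hk - (k ^ 2 - w * k + (w - 1)) * hw.eq_zero
  rcases mul_eq_zero.mp e with h | h
  · exact .inl (sub_eq_zero.mp h)
  · rcases mul_eq_zero.mp h with h | h
    · exact .inr (.inl (sub_eq_zero.mp h))
    · exact .inr (.inr (sub_eq_zero.mp h))

variable {E : WeierstrassCurve K} {r s : K}

/-- The combinations of `P` and `Q`. -/
def Fib.comb (h : Fib E r s) {w : K} (hw : IsOmega w) :
    ZMod 3 × ZMod 3 →+ E.toAffine.Point :=
  (mulHom (h.P hw) (h.three_nsmul_P hw)).coprod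
    (mulHom (h.Q (one_pow 3)) (h.three_nsmul_Q (one_pow 3)))

theorem Fib.comb_one_zero (h : Fib E r s) {w : K} (hw : IsOmega w) :
    h.comb hw (1, 0) = h.P hw := by
  simp [Fib.comb, mulHom_one]

theorem Fib.comb_zero_one (h : Fib E r s) {w : K} (hw : IsOmega w) :
    h.comb hw (0, 1) = h.Q (one_pow 3) := by
  simp [Fib.comb, mulHom_one]

theorem Fib.comb_eq (h : Fib E r s) {w : K} (hw : IsOmega w) (mn : ZMod 3 × ZMod 3) :
    h.comb hw mn = mn.1.val • h.P hw + mn.2.val • h.Q (one_pow 3) := by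
  have e : mn = mn.1.val • ((1, 0) : ZMod 3 × ZMod 3) + mn.2.val • (0, 1) := by
    ext <;> simp
  conv_lhs => rw [e, map_add, map_nsmul, map_nsmul, h.comb_one_zero, h.comb_zero_one]

theorem exists_comb_eq_Q {w k : K} (hw : IsOmega w) (hk : k ^ 3 = 1) :
    ∃ mn : ZMod 3 × ZMod 3, mn.2 = 1 ∧
      ∀ (E : WeierstrassCurve K) (r s : K) (h : Fib E r s), h.comb hw mn = h.Q hk := by
  rcases cube_root_cases hw hk with rfl | rfl | rfl
  · exact ⟨(0, 1), rfl, fun E r s h => h.comb_zero_one hw⟩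
  · refine ⟨(1, 0) + ((1, 0) + (0, 1)), by decide, fun E r s h => ?_⟩
    have h2 : (k ^ 2 * 1) ^ 3 = 1 := by rw [mul_one]; exact hw.sq.cube
    have h4 : (k ^ 2 * (k ^ 2 * 1)) ^ 3 = 1 := by rw [mul_pow, h2, mul_one]; exact hw.sq.cube
    rw [map_add, map_add, h.comb_one_zero, h.comb_zero_one, h.P_add_Q hw (one_pow 3) h2,
      h.P_add_Q hw h2 h4]
    congr 1
    linear_combination k * hw.cube
  · refine ⟨(1, 0) + (0, 1), by decide, fun E r s h => ?_⟩
    have h2 : (w ^ 2 * 1) ^ 3 = 1 := by rw [mul_one]; exact hw.sq.cube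
    rw [map_add, h.comb_one_zero, h.comb_zero_one, h.P_add_Q hw (one_pow 3) h2]
    congr 1
    exact mul_one _

theorem exists_comb_eq_P {w w' : K} (hw : IsOmega w) (hw' : IsOmega w') :
    ∃ mn : ZMod 3 × ZMod 3,
      ∀ (E : WeierstrassCurve K) (r s : K) (h : Fib E r s), h.comb hw mn = h.P hw' := by
  rcases cube_root_cases hw hw'.cube with rfl | rfl | rfl
  · exact absurd hw'.eq_zero (by norm_num)
  · exact ⟨(1, 0), fun E r s h => h.comb_one_zero hw'⟩
  · refine ⟨-(1, 0), fun E r s h => ?_⟩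
    rw [map_neg, h.comb_one_zero, h.neg_P]

theorem Fib.comb_injective (h : Fib E r s) {w : K} (hw : IsOmega w) :
    Function.Injective (h.comb hw) := by
  rw [injective_iff_map_eq_zero]
  have hQ : ∀ n : ZMod 3 × ZMod 3, n.2 = 1 → h.comb hw n ≠ 0 := by
    intro n hn
    obtain ⟨m, rfl⟩ : ∃ m, n = (m, 1) := ⟨n.1, Prod.ext rfl hn⟩
    have k1 : (w ^ 2 * 1) ^ 3 = 1 := by rw [mul_one]; exact hw.sq.cube
    have k2 : (w ^ 2 * (w ^ 2 * 1)) ^ 3 = 1 := by rw [mul_pow, k1, mul_one]; exact hw.sq.cube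
    have key : ∀ a : ZMod 3, a = 0 ∨ a = 1 ∨ a = 2 := by decide
    rcases key m with rfl | rfl | rfl
    · rw [h.comb_zero_one]; exact Affine.Point.some_ne_zero _
    · rw [show ((1, 1) : ZMod 3 × ZMod 3) = (1, 0) + (0, 1) by decide, map_add, h.comb_one_zero,
        h.comb_zero_one, h.P_add_Q hw (one_pow 3) k1]
      exact Affine.Point.some_ne_zero _
    · rw [show ((2, 1) : ZMod 3 × ZMod 3) = (1, 0) + ((1, 0) + (0, 1)) by decide, map_add, map_add,
        h.comb_one_zero, h.comb_zero_one, h.P_add_Q hw (one_pow 3) k1, h.P_add_Q hw k1 k2]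
      exact Affine.Point.some_ne_zero _
  rintro ⟨m, n⟩ hmn
  have key : ∀ a : ZMod 3, a = 0 ∨ a = 1 ∨ a = 2 := by decide
  rcases key n with rfl | rfl | rfl
  · rcases key m with rfl | rfl | rfl
    · rfl
    · rw [h.comb_one_zero] at hmn
      exact absurd hmn (Affine.Point.some_ne_zero _)
    · rw [show ((2, 0) : ZMod 3 × ZMod 3) = -(1, 0) by decide, map_neg, h.comb_one_zero,
        neg_eq_zero] at hmn
      exact absurd hmn (Affine.Point.some_ne_zero _)
  · exact absurd hmn (hQ _ rfl)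
  · refine absurd ?_ (hQ (-(m, 2)) (show -(2 : ZMod 3) = 1 by decide))
    rw [map_neg, hmn, neg_zero]

/-- A substitution preserving the forms, acting on the sections by a fixed matrix. -/
structure IsSym (w a b c d : K) : Prop where
  c4_eq : ∀ r s : K, hC4 (a * r + b * s) (c * r + d * s) = hC4 r s
  c6_eq : ∀ r s : K, hC6 (a * r + b * s) (c * r + d * s) = hC6 r s
  k1_eq : ∀ r s : K, -hDs (a * r + b * s) (c * r + d * s) = a * -hDs r s + b * hDr r s
  k2_eq : ∀ r s : K, hDr (a * r + b * s) (c * r + d * s) = c * -hDs r s + d * hDr r s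
  act : ∀ hw : IsOmega w, ∃ g₁ g₂ : ZMod 3 × ZMod 3, ∀ (E : WeierstrassCurve K) (r s r' s' : K),
    r' = a * r + b * s → s' = c * r + d * s → ∀ (h : Fib E r s) (h' : Fib E r' s'),
      h'.P hw = h.comb hw g₁ ∧ h'.Q (one_pow 3) = h.comb hw g₂

theorem hD_ne_of_eq {r' s' : K} (h4 : hC4 r' s' = hC4 r s) (h6 : hC6 r' s' = hC6 r s)
    (hD : hD r s ≠ 0) : Family.hD r' s' ≠ 0 := by
  intro e
  have := hC4_cube_sub_hC6_sq r' s'
  rw [h4, h6, hC4_cube_sub_hC6_sq, e] at this
  simp [hD] at this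

theorem IsSym.comp {w a b c d a' b' c' d' : K} (g : IsSym w a b c d)
    (g' : IsSym w a' b' c' d') :
    IsSym w (a * a' + b * c') (a * b' + b * d') (c * a' + d * c') (c * b' + d * d') := by
  have e1 : ∀ r s : K, (a * a' + b * c') * r + (a * b' + b * d') * s =
      a * (a' * r + b' * s) + b * (c' * r + d' * s) := fun r s => by ring
  have e2 : ∀ r s : K, (c * a' + d * c') * r + (c * b' + d * d') * s =
      c * (a' * r + b' * s) + d * (c' * r + d' * s) := fun r s => by ring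
  refine ⟨fun r s => ?_, fun r s => ?_, fun r s => ?_, fun r s => ?_, fun hw => ?_⟩
  · rw [e1, e2, g.c4_eq, g'.c4_eq]
  · rw [e1, e2, g.c6_eq, g'.c6_eq]
  · rw [e1, e2, g.k1_eq, g'.k1_eq, g'.k2_eq]; ring
  · rw [e1, e2, g.k2_eq, g'.k1_eq, g'.k2_eq]; ring
  · obtain ⟨g₁, g₂, hg⟩ := g.act hw
    obtain ⟨g₁', g₂', hg'⟩ := g'.act hw
    refine ⟨g₁.1.val • g₁' + g₁.2.val • g₂', g₂.1.val • g₁' + g₂.2.val • g₂',
      fun E r s r' s' hr hs h h' => ?_⟩
    have hm : Fib E (a' * r + b' * s) (c' * r + d' * s) :=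
      ⟨by rw [g'.c4_eq, h.c4_eq], by rw [g'.c6_eq, h.c6_eq],
        hD_ne_of_eq (g'.c4_eq r s) (g'.c6_eq r s) h.hD_ne⟩
    obtain ⟨p1, p2⟩ := hg' E r s _ _ rfl rfl h hm
    obtain ⟨q1, q2⟩ := hg E _ _ r' s' (hr.trans (e1 r s)) (hs.trans (e2 r s)) hm h'
    have key : ∀ x : ZMod 3 × ZMod 3,
        hm.comb hw x = h.comb hw (x.1.val • g₁' + x.2.val • g₂') := fun x => by
      rw [hm.comb_eq hw x, p1, p2, map_add, map_nsmul, map_nsmul]
    exact ⟨q1.trans (key g₁), q2.trans (key g₂)⟩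

theorem isSym_neg (w : K) : IsSym w (-1) 0 0 (-1) := by
  refine ⟨fun r s => ?_, fun r s => ?_, fun r s => ?_, fun r s => ?_, fun hw => ?_⟩
  iterate 4 (simp only [hC4, hC6, hDs, hDr]; ring)
  refine ⟨-(1, 0), -(0, 1), fun E r s r' s' hr hs h h' => ?_⟩
  obtain rfl : r' = -r := by rw [hr]; ring
  obtain rfl : s' = -s := by rw [hs]; ring
  rw [map_neg, map_neg, h.comb_one_zero, h.comb_zero_one]
  constructor <;>
  · simp only [Fib.P, Fib.Q, Affine.Point.neg_some, negY_affY, Affine.Point.some.injEq]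
    refine ⟨?_, ?_⟩ <;> simp only [affX, affY, pX, pY, qX, qY] <;> ring

theorem isSym_diag {w k : K} (hk : k ^ 3 = 1) : IsSym w 1 0 0 k := by
  refine ⟨fun r s => ?_, fun r s => ?_, fun r s => ?_, fun r s => ?_, fun hw => ?_⟩
  · simp only [hC4]; linear_combination 216 * r * s ^ 3 * hk
  · simp only [hC6]
    linear_combination (540 * r ^ 3 * s ^ 3 + 5832 * s ^ 6 * (k ^ 3 + 1)) * hk
  · simp only [hDs]; linear_combination 108 * s ^ 3 * hk
  · simp only [hDr]; ring
  · obtain ⟨mn, -, hmn⟩ := exists_comb_eq_Q hw hk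
    refine ⟨(1, 0), mn, fun E r s r' s' hr hs h h' => ?_⟩
    rw [one_mul, zero_mul, add_zero] at hr
    rw [zero_mul, zero_add] at hs
    subst hr hs
    rw [h.comb_one_zero, hmn E r' s h]
    have e : (k * s) ^ 3 = s ^ 3 := by rw [mul_pow, hk, one_mul]
    constructor
    · simp only [Fib.P, pY, e]
    · simp only [Fib.Q, qX, qY, one_mul, mul_assoc 6 k s, mul_one]

/-- The scalar of the extra symmetry. -/
def lam (w : K) : K := -(1 + 2 * w) / 3

theorem isSym_swap {w : K} (hw : IsOmega w) :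
    IsSym w (lam w) (6 * lam w) (lam w / 3) (-lam w) := by
  have hl : (1 + 2 * w) * lam w = 1 := by
    rw [lam]; linear_combination (-1 / 3 : K) * hw.sq_eq
  have hl2 : lam w ^ 2 = -1 / 3 := by
    rw [lam]; linear_combination (1 / 9 : K) * hw.sq_eq
  have hl3 : lam w ^ 3 = -1 / 3 * lam w := by rw [pow_succ, hl2]
  have hl4 : lam w ^ 4 = 1 / 9 := by rw [show lam w ^ 4 = (lam w ^ 2) ^ 2 by ring, hl2]; norm_num
  have hl6 : lam w ^ 6 = -1 / 27 := by rw [show lam w ^ 6 = (lam w ^ 2) ^ 3 by ring, hl2]; norm_num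
  have ea : ∀ r s : K, lam w * r + 6 * lam w * s = lam w * (r + 6 * s) := fun r s => by ring
  have ec : ∀ r s : K, lam w / 3 * r + -lam w * s = lam w * ((r - 3 * s) / 3) := fun r s => by ring
  refine ⟨fun r s => ?_, fun r s => ?_, fun r s => ?_, fun r s => ?_, fun hw' => ?_⟩
  · rw [ea, ec, show hC4 (lam w * (r + 6 * s)) (lam w * ((r - 3 * s) / 3)) =
      lam w ^ 4 * hC4 (r + 6 * s) ((r - 3 * s) / 3) by simp only [hC4]; ring, hl4]
    simp only [hC4]; ring
  · rw [ea, ec, show hC6 (lam w * (r + 6 * s)) (lam w * ((r - 3 * s) / 3)) =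
      lam w ^ 6 * hC6 (r + 6 * s) ((r - 3 * s) / 3) by simp only [hC6]; ring, hl6]
    simp only [hC6]; ring
  · rw [ea, ec, show hDs (lam w * (r + 6 * s)) (lam w * ((r - 3 * s) / 3)) =
      lam w ^ 3 * hDs (r + 6 * s) ((r - 3 * s) / 3) by simp only [hDs]; ring, hl3]
    simp only [hDs, hDr]; ring
  · rw [ea, ec, show hDr (lam w * (r + 6 * s)) (lam w * ((r - 3 * s) / 3)) =
      lam w ^ 3 * hDr (r + 6 * s) ((r - 3 * s) / 3) by simp only [hDr]; ring, hl3]
    simp only [hDs, hDr]; ring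
  · refine ⟨-(0, 1), (1, 0), fun E r s r' s' hr hs h h' => ?_⟩
    rw [ea] at hr
    rw [ec] at hs
    subst hr hs
    rw [map_neg, h.comb_zero_one, h.comb_one_zero]
    have e1 : pX (lam w * (r + 6 * s)) = qX 1 r s := by
      simp only [pX, qX, mul_one]; linear_combination -9 * (r + 6 * s) ^ 2 * hl2
    have e2 : pY w (lam w * (r + 6 * s)) (lam w * ((r - 3 * s) / 3)) = -qY 1 r s := by
      simp only [pY, qY, one_mul]
      linear_combination 12 * (1 + 2 * w) * (27 * r ^ 2 * s + 81 * r * s ^ 2 + 243 * s ^ 3) * hl3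
        - 108 * (r ^ 2 * s + 3 * r * s ^ 2 + 9 * s ^ 3) * hl
    have e3 : qX 1 (lam w * (r + 6 * s)) (lam w * ((r - 3 * s) / 3)) = pX r := by
      simp only [pX, qX]; linear_combination 27 * r ^ 2 * hl2
    have e4 : qY 1 (lam w * (r + 6 * s)) (lam w * ((r - 3 * s) / 3)) = pY w r s := by
      simp only [pY, qY, one_mul]
      have hw3 : 1 + 2 * w = -3 * lam w := by rw [lam]; ring
      linear_combination 108 * (r ^ 3 - 27 * s ^ 3) * hl3
        - 12 * (r ^ 3 - 27 * s ^ 3) * hw3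
    constructor
    · simp only [Fib.P, Fib.Q, Affine.Point.neg_some, negY_affY, e1, e2]
    · simp only [Fib.P, Fib.Q, e3, e4]

theorem eq_pX_or_qX {w X : K} (hw : IsOmega w)
    (h : 3 * X ^ 4 + 6 * (-27 * hC4 r s) * X ^ 2 + 12 * (-54 * hC6 r s) * X
      - (-27 * hC4 r s) ^ 2 = 0) : X = pX r ∨ ∃ k, k ^ 3 = 1 ∧ X = qX k r s := by
  have hsum : qX w r s + qX (w ^ 2) r s = 6 * (r ^ 2 - 6 * r * s - 18 * s ^ 2) := by
    simp only [qX]
    linear_combination (36 * r * s + 108 * (w ^ 2 - w + 1) * s ^ 2) * hw.eq_zero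
  have hprod : qX w r s * qX (w ^ 2) r s = 9 * (r ^ 2 - 6 * r * s + 36 * s ^ 2) ^ 2 := by
    have e : (r + 6 * w * s) * (r + 6 * w ^ 2 * s) = r ^ 2 - 6 * r * s + 36 * s ^ 2 := by
      linear_combination (6 * r * s + 36 * (w - 1) * s ^ 2) * hw.eq_zero
    rw [← e]; simp only [qX]; ring
  have e : (X - pX r) * ((X - qX 1 r s) * ((X - qX w r s) * (X - qX (w ^ 2) r s))) = 0 := by
    have e' : (X - qX w r s) * (X - qX (w ^ 2) r s) =
        X ^ 2 - 6 * (r ^ 2 - 6 * r * s - 18 * s ^ 2) * X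
          + 9 * (r ^ 2 - 6 * r * s + 36 * s ^ 2) ^ 2 := by
      linear_combination -X * hsum + hprod
    rw [e']
    simp only [pX, qX, hC4, hC6] at h ⊢
    linear_combination h / 3
  rcases mul_eq_zero.mp e with h | h
  · exact .inl (sub_eq_zero.mp h)
  rcases mul_eq_zero.mp h with h | h
  · exact .inr ⟨1, one_pow 3, sub_eq_zero.mp h⟩
  rcases mul_eq_zero.mp h with h | h
  · exact .inr ⟨w, hw.cube, sub_eq_zero.mp h⟩
  · exact .inr ⟨w ^ 2, hw.sq.cube, sub_eq_zero.mp h⟩

/-- Vectors with the same invariants and the same `pX` differ by a diagonal symmetry. -/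
theorem exists_isSym_of_pX {w r' s' : K} (h4 : hC4 r' s' = hC4 r s) (h6 : hC6 r' s' = hC6 r s)
    (hD : hD r s ≠ 0) (hp : pX r' = pX r) :
    ∃ a b c d : K, IsSym w a b c d ∧ r' = a * r + b * s ∧ s' = c * r + d * s := by
  have hs : s ≠ 0 := fun e => hD (by simp [Family.hD, e])
  have hsq : r' ^ 2 = r ^ 2 := mul_left_cancel₀ (show (-9 : K) ≠ 0 by norm_num) hp
  simp only [hC4] at h4
  simp only [hC6] at h6
  rcases eq_or_ne r 0 with rfl | hr
  · obtain rfl : r' = 0 := by simpa using hsq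
    have e6 : (s' / s) ^ 6 = 1 := by
      rw [div_pow, div_eq_one_iff_eq (pow_ne_zero 6 hs)]; linear_combination h6 / 5832
    rcases mul_eq_zero.mp (show ((s' / s) ^ 3 - 1) * ((s' / s) ^ 3 + 1) = 0 by
      linear_combination e6) with e | e
    · exact ⟨1, 0, 0, s' / s, isSym_diag (sub_eq_zero.mp e), by ring, by field_simp; ring⟩
    · exact ⟨_, _, _, _, (isSym_neg w).comp (isSym_diag (k := -(s' / s))
        (by linear_combination -e)), by ring, by field_simp; ring⟩
  · rcases sq_eq_sq_iff_eq_or_eq_neg.mp hsq with rfl | rfl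
    · have e : (s' / s) ^ 3 = 1 := by
        rw [div_pow, div_eq_one_iff_eq (pow_ne_zero 3 hs)]
        exact mul_left_cancel₀ (mul_ne_zero (show (216 : K) ≠ 0 by norm_num) hr)
          (by linear_combination h4)
      exact ⟨1, 0, 0, s' / s, isSym_diag e, by ring, by field_simp; ring⟩
    · have e : (-(s' / s)) ^ 3 = 1 := by
        rw [← neg_div, div_pow, div_eq_one_iff_eq (pow_ne_zero 3 hs)]
        exact mul_left_cancel₀ (mul_ne_zero (show (216 : K) ≠ 0 by norm_num) hr)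
          (by linear_combination h4)
      exact ⟨_, _, _, _, (isSym_neg w).comp (isSym_diag e), by ring, by field_simp; ring⟩

/-- The symmetries act transitively on each fibre. -/
theorem exists_isSym {w r' s' : K} (hw : IsOmega w) (h4 : hC4 r' s' = hC4 r s)
    (h6 : hC6 r' s' = hC6 r s) (hD : hD r s ≠ 0) :
    ∃ a b c d : K, IsSym w a b c d ∧ r' = a * r + b * s ∧ s' = c * r + d * s := by
  have hX : 3 * pX r' ^ 4 + 6 * (-27 * hC4 r s) * pX r' ^ 2 + 12 * (-54 * hC6 r s) * pX r'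
      - (-27 * hC4 r s) ^ 2 = 0 := by
    rw [← h4, ← h6]; simp only [pX, hC4, hC6]; ring
  rcases eq_pX_or_qX hw hX with hp | ⟨k, hk, hp⟩
  · exact exists_isSym_of_pX h4 h6 hD hp
  · have g := (isSym_swap hw).comp (isSym_diag hk)
    obtain ⟨a, b, c, d, g', hr', hs'⟩ := exists_isSym_of_pX (w := w) (r' := r') (s' := s')
      (h4.trans (g.c4_eq r s).symm) (h6.trans (g.c6_eq r s).symm)
      (hD_ne_of_eq (g.c4_eq r s) (g.c6_eq r s) hD) (by
        rw [hp]
        simp only [pX, qX, lam]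
        linear_combination (r + 6 * k * s) ^ 2 * hw.sq_eq)
    exact ⟨_, _, _, _, g'.comp g, by rw [hr']; ring, by rw [hs']; ring⟩

/-- Every pair of invariants with nonzero discriminant is taken. -/
theorem exists_eq_hC4_hC6 [IsAlgClosed K] {c₄ c₆ : K} (hd : c₄ ^ 3 - c₆ ^ 2 ≠ 0) :
    ∃ r s : K, hC4 r s = c₄ ∧ hC6 r s = c₆ := by
  rcases eq_or_ne c₄ 0 with rfl | h4
  · obtain ⟨s, hs⟩ := IsAlgClosed.exists_pow_nat_eq (c₆ / 5832) (n := 6) (by norm_num)
    exact ⟨0, s, by simp [hC4], by simp only [hC6]; linear_combination 5832 * hs⟩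
  · set p : K[X] := C 27 * X ^ 4 + C (-18 * c₄) * X ^ 2 + C (8 * c₆) * X + C (-c₄ ^ 2) with hp
    have hdeg : p.degree ≠ 0 := by
      intro e
      have h1 := coeff_eq_zero_of_degree_lt (p := p) (n := 4) (by rw [e]; norm_num)
      simp only [hp, coeff_add, coeff_C_mul, coeff_X_pow, coeff_X, coeff_C] at h1
      norm_num at h1
    obtain ⟨u, hu⟩ := IsAlgClosed.exists_root p hdeg
    simp only [hp, IsRoot.def, eval_add, eval_mul, eval_C, eval_pow, eval_X] at hu
    obtain ⟨r, rfl⟩ := IsAlgClosed.exists_pow_nat_eq u (n := 2) (by norm_num)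
    have hr : r ≠ 0 := by
      rintro rfl
      exact h4 (by simpa using hu)
    obtain ⟨s, hs⟩ := IsAlgClosed.exists_pow_nat_eq ((c₄ - r ^ 4) / (216 * r)) (n := 3) (by norm_num)
    refine ⟨r, s, ?_, ?_⟩
    · simp only [hC4, hs]; field_simp; ring
    · simp only [hC6, show s ^ 6 = (s ^ 3) ^ 2 by ring, hs]
      field_simp
      linear_combination -5832 * hu

end Fermat.Agent.Two.Family
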