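import Mathlib
import Fermat.Prelude.Def_EllipticCurve_FrobeniusTrace
import Fermat.Prelude.Def_FLTPrelim_ModularRep
import Fermat.Agent.EC.Torsion.Galois
import Fermat.Agent.EC.FrobTrace.Main
import Fermat.Agent.Arith.Frobenius
import Fermat.Agent.Two.Family.Symmetry

/-!
# All members of the pencil have the same 3-torsion

A curve over `ℚ` with invariants `qC4`, `qC6` at rational `(S, T)` has 3-torsion equivariantly
isomorphic to that of the base curve.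
-/

set_option autoImplicit false
set_option linter.unusedSectionVars false

noncomputable section

namespace Fermat.Agent.Two.Family

open WeierstrassCurve WeierstrassCurve.Affine Polynomial
open scoped WeierstrassCurve.Affine

local notation "Qb" => AlgebraicClosure ℚ

theorem IsOmega.map {w : Qb} (hw : IsOmega w) (σ : Qb ≃ₐ[ℚ] Qb) : IsOmega (σ w) :=
  ⟨by
    have := congrArg σ hw.eq_zero
    simpa using this⟩

theorem map_affX (V : WeierstrassCurve ℚ) (σ : Qb ≃ₐ[ℚ] Qb) (X : Qb) :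
    σ (affX (V⁄Qb) X) = affX (V⁄Qb) (σ X) := by
  simp [affX, map_ofNat, WeierstrassCurve.b₂]

theorem map_affY (V : WeierstrassCurve ℚ) (σ : Qb ≃ₐ[ℚ] Qb) (X Y : Qb) :
    σ (affY (V⁄Qb) X Y) = affY (V⁄Qb) (σ X) (σ Y) := by
  simp [affY, map_affX, map_ofNat]

theorem smul_P (V : WeierstrassCurve ℚ) {r s : Qb} (h : Fib (V⁄Qb) r s) {w : Qb} (hw : IsOmega w)
    (σ : Qb ≃ₐ[ℚ] Qb) {r' s' : Qb} (hr : σ r = r') (hs : σ s = s') (h' : Fib (V⁄Qb) r' s') :
    σ • (h.P hw : (V⁄Qb).toAffine.Point) = h'.P (hw.map σ) := by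
  subst hr hs
  simp only [Fib.P]
  show Point.map σ.toAlgHom _ = _
  rw [Point.map_some]
  simp only [Point.some.injEq]
  constructor
  · show σ _ = _
    simp [map_affX, pX, map_ofNat]
  · show σ _ = _
    simp [map_affY, pX, pY, map_ofNat]

theorem smul_Q (V : WeierstrassCurve ℚ) {r s : Qb} (h : Fib (V⁄Qb) r s)
    (σ : Qb ≃ₐ[ℚ] Qb) {r' s' : Qb} (hr : σ r = r') (hs : σ s = s') (h' : Fib (V⁄Qb) r' s') :
    σ • (h.Q (one_pow 3) : (V⁄Qb).toAffine.Point) = h'.Q (one_pow 3) := by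
  subst hr hs
  simp only [Fib.Q]
  show Point.map σ.toAlgHom _ = _
  rw [Point.map_some]
  simp only [Point.some.injEq]
  constructor
  · show σ _ = _
    simp [map_affX, qX, map_ofNat]
  · show σ _ = _
    simp [map_affY, qX, qY, map_ofNat]

theorem natCard_torsion_three {E : WeierstrassCurve Qb} (hΔ : E.Δ ≠ 0) :
    Nat.card (Submodule.torsionBy ℤ E.toAffine.Point (3 : ℕ)) = 9 := by
  have : E.IsElliptic := ⟨isUnit_iff_ne_zero.mpr hΔ⟩
  rw [EC.Torsion.natCard_torsionBy E.toAffine (n := 3) (by norm_num)]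
  norm_num

theorem comb_mem {E : WeierstrassCurve Qb} {r s w : Qb} (h : Fib E r s) (hw : IsOmega w)
    (mn : ZMod 3 × ZMod 3) :
    h.comb hw mn ∈ Submodule.torsionBy ℤ E.toAffine.Point (3 : ℕ) := by
  rw [Submodule.mem_torsionBy_iff, natCast_zsmul, ← map_nsmul,
    show (3 : ℕ) • mn = 0 by ext <;> simp [nsmul_eq_mul, show (3 : ZMod 3) = 0 from rfl], map_zero]

/-- The coordinates on the 3-torsion given by the sections. -/
def torsionEquiv {E : WeierstrassCurve Qb} {r s w : Qb} (h : Fib E r s) (hw : IsOmega w) :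
    (ZMod 3 × ZMod 3) ≃+ Submodule.torsionBy ℤ E.toAffine.Point (3 : ℕ) :=
  AddEquiv.ofBijective
    ((h.comb hw).codRestrict (Submodule.torsionBy ℤ E.toAffine.Point (3 : ℕ)).toAddSubgroup
      (comb_mem h hw))
    (by
      have hinj : Function.Injective ((h.comb hw).codRestrict
          (Submodule.torsionBy ℤ E.toAffine.Point (3 : ℕ)).toAddSubgroup (comb_mem h hw)) :=
        fun _ _ hab => h.comb_injective hw (congrArg Subtype.val hab)
      have : Finite (Submodule.torsionBy ℤ E.toAffine.Point (3 : ℕ)).toAddSubgroup :=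
        Nat.finite_of_card_ne_zero
          ((natCard_torsion_three h.Δ_ne_zero).trans_ne (by norm_num))
      rw [Nat.bijective_iff_injective_and_card]
      exact ⟨hinj, by rw [show Nat.card (ZMod 3 × ZMod 3) = 9 by simp]
                      exact (natCard_torsion_three h.Δ_ne_zero).symm⟩)

theorem smul_comb {V : WeierstrassCurve ℚ} {r s w : Qb} (h : Fib (V⁄Qb) r s) (hw : IsOmega w)
    (σ : Qb ≃ₐ[ℚ] Qb) {g₁ g₂ : ZMod 3 × ZMod 3}
    (h₁ : σ • (h.P hw : (V⁄Qb).toAffine.Point) = h.comb hw g₁)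
    (h₂ : σ • (h.Q (one_pow 3) : (V⁄Qb).toAffine.Point) = h.comb hw g₂) (mn : ZMod 3 × ZMod 3) :
    σ • (h.comb hw mn : (V⁄Qb).toAffine.Point)
      = h.comb hw (mn.1.val • g₁ + mn.2.val • g₂) := by
  have hn := fun (k : ℕ) P => map_nsmul (DistribSMul.toAddMonoidHom (V⁄Qb).toAffine.Point σ) k P
  simp only [DistribSMul.toAddMonoidHom_apply] at hn
  rw [h.comb_eq]
  show σ • (mn.1.val • h.P hw + mn.2.val • h.Q (one_pow 3) : (V⁄Qb).toAffine.Point) = _
  rw [smul_add, hn, hn, h₁, h₂, map_add, map_nsmul, map_nsmul]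

theorem exists_isOmega : ∃ w : Qb, IsOmega w := by
  obtain ⟨w, hw⟩ := IsAlgClosed.exists_root (X ^ 2 + X + C 1 : Qb[X])
    (by rw [degree_eq_natDegree (by intro e; simpa [coeff_X, coeff_one] using congrArg (coeff · 2) e)]; simp only [ne_eq, Nat.cast_eq_zero]; rw [show natDegree (X ^ 2 + X + C 1 : Qb[X]) = 2 by compute_degree!]; norm_num)
  exact ⟨w, ⟨by simpa [IsRoot.def] using hw⟩⟩

variable {c₄ c₆ S T : ℚ} (V₀ V : WeierstrassCurve ℚ)

/-- **The 3-torsion is constant on the pencil.** -/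
theorem exists_torsion_equiv (h₀4 : V₀.c₄ = c₄) (h₀6 : V₀.c₆ = c₆) (h₀ : V₀.Δ ≠ 0)
    (h4 : V.c₄ = qC4 c₄ c₆ S T) (h6 : V.c₆ = qC6 c₄ c₆ S T) (hq : qD c₄ c₆ S T ≠ 0) :
    ∃ φ : Submodule.torsionBy ℤ (V₀⁄Qb).toAffine.Point (3 : ℕ) ≃+
        Submodule.torsionBy ℤ (V⁄Qb).toAffine.Point (3 : ℕ),
      ∀ (σ : Qb ≃ₐ[ℚ] Qb) x, φ (σ • x) = σ • φ x := by
  have b4 : (V₀⁄Qb).c₄ = (c₄ : Qb) := by simp [WeierstrassCurve.baseChange, h₀4]
  have b6 : (V₀⁄Qb).c₆ = (c₆ : Qb) := by simp [WeierstrassCurve.baseChange, h₀6]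
  have hd : (c₄ : Qb) ^ 3 - (c₆ : Qb) ^ 2 ≠ 0 := by
    have := V₀.c_relation
    rw [h₀4, h₀6] at this
    have h0 : c₄ ^ 3 - c₆ ^ 2 ≠ 0 := this ▸ mul_ne_zero (by norm_num) h₀
    exact_mod_cast h0
  obtain ⟨r, s, e4, e6⟩ := exists_eq_hC4_hC6 hd
  have hD : hD r s ≠ 0 := fun e => hd (by rw [← e4, ← e6, hC4_cube_sub_hC6_sq, e]; simp)
  have hf₀ : Fib (V₀⁄Qb) r s := ⟨b4.trans e4.symm, b6.trans e6.symm, hD⟩
  set r' := (S : Qb) * r - (T : Qb) * hDs r s with hr'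
  set s' := (S : Qb) * s + (T : Qb) * hDr r s with hs'
  have hq' : ((qD c₄ c₆ S T : ℚ) : Qb) = qD (c₄ : Qb) (c₆ : Qb) (S : Qb) (T : Qb) :=
    map_qD (Rat.castHom Qb) _ _ _ _
  have hD' : Family.hD r' s' ≠ 0 := by
    rw [hr', hs', hD_line, e4, e6, ← hq']
    exact mul_ne_zero hD (Rat.cast_ne_zero.mpr hq)
  have hf : Fib (V⁄Qb) r' s' := by
    refine ⟨?_, ?_, hD'⟩
    · rw [hr', hs', hC4_line, e4, e6]
      show (V.map (algebraMap ℚ Qb)).c₄ = _
      rw [map_c₄, h4]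
      exact map_qC4 (algebraMap ℚ Qb) _ _ _ _ |>.trans (by simp)
    · rw [hr', hs', hC6_line, e4, e6]
      show (V.map (algebraMap ℚ Qb)).c₆ = _
      rw [map_c₆, h6]
      exact map_qC6 (algebraMap ℚ Qb) _ _ _ _ |>.trans (by simp)
  obtain ⟨w, hw⟩ := exists_isOmega
  refine ⟨(torsionEquiv hf₀ hw).symm.trans (torsionEquiv hf hw), fun σ x => ?_⟩
  obtain ⟨mn, rfl⟩ := (torsionEquiv hf₀ hw).surjective x
  have k4 : hC4 (σ r) (σ s) = hC4 r s :=
    (map_hC4 (σ : Qb →+* Qb) r s).symm.trans (by simp [e4])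
  have k6 : hC6 (σ r) (σ s) = hC6 r s :=
    (map_hC6 (σ : Qb →+* Qb) r s).symm.trans (by simp [e6])
  obtain ⟨a, b, c, d, g, hσr, hσs⟩ := exists_isSym hw k4 k6 hD
  have m1 : σ (hDs r s) = hDs (σ r) (σ s) := map_hDs (σ : Qb →+* Qb) r s
  have m2 : σ (hDr r s) = hDr (σ r) (σ s) := map_hDr (σ : Qb →+* Qb) r s
  have hσr' : σ r' = a * r' + b * s' := by
    have k := g.k1_eq r s
    rw [← hσr, ← hσs] at k
    rw [hr', hs', map_sub, map_mul, map_mul, map_ratCast, map_ratCast, m1]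
    linear_combination (T : Qb) * k + (S : Qb) * hσr
  have hσs' : σ s' = c * r' + d * s' := by
    have k := g.k2_eq r s
    rw [← hσr, ← hσs] at k
    rw [hr', hs', map_add, map_mul, map_mul, map_ratCast, map_ratCast, m2]
    linear_combination (T : Qb) * k + (S : Qb) * hσs
  obtain ⟨g₁, g₂, hg⟩ := g.act hw
  obtain ⟨p, hp⟩ := exists_comb_eq_P hw (hw.map σ)
  set G := p.1.val • g₁ + p.2.val • g₂
  have action : ∀ (U : WeierstrassCurve ℚ) (x y : Qb) (hU : Fib (U⁄Qb) x y),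
      σ x = a * x + b * y → σ y = c * x + d * y →
      σ • (hU.P hw : (U⁄Qb).toAffine.Point) = hU.comb hw G ∧
        σ • (hU.Q (one_pow 3) : (U⁄Qb).toAffine.Point) = hU.comb hw g₂ := by
    intro U x y hU hx hy
    have hU' : Fib (U⁄Qb) (a * x + b * y) (c * x + d * y) :=
      ⟨hU.c4_eq.trans (g.c4_eq x y).symm, hU.c6_eq.trans (g.c6_eq x y).symm,
        hD_ne_of_eq (g.c4_eq x y) (g.c6_eq x y) hU.hD_ne⟩
    obtain ⟨q1, q2⟩ := hg (U⁄Qb) x y _ _ rfl rfl hU hU'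
    rw [smul_P U hU hw σ hx hy hU', smul_Q U hU σ hx hy hU', ← hp (U⁄Qb) _ _ hU', hU'.comb_eq,
      q1, q2, map_add, map_nsmul, map_nsmul]
    exact ⟨rfl, rfl⟩
  obtain ⟨u1, u2⟩ := action V₀ r s hf₀ hσr hσs
  obtain ⟨v1, v2⟩ := action V r' s' hf hσr' hσs'
  have e1 : σ • torsionEquiv hf₀ hw mn = torsionEquiv hf₀ hw (mn.1.val • G + mn.2.val • g₂) :=
    Subtype.ext (smul_comb hf₀ hw σ u1 u2 mn)
  have e2 : σ • torsionEquiv hf hw mn = torsionEquiv hf hw (mn.1.val • G + mn.2.val • g₂) :=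
    Subtype.ext (smul_comb hf hw σ v1 v2 mn)
  rw [e1]
  simp only [AddEquiv.trans_apply, AddEquiv.symm_apply_apply]
  exact e2.symm

end Fermat.Agent.Two.Family
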