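import Mathlib
import Fermat.Prelude.Def_FLTPrelim_ModularRep
import Fermat.Agent.Arith.Frobenius
import Fermat.Agent.EC.FrobTrace.Main
import Fermat.Agent.Two.Family.Torsion

/-!
# Consequences of equivariantly isomorphic 3-torsion, and supersingular reduction at 2
-/

set_option autoImplicit false

noncomputable section

namespace Fermat.Agent.Two.Family

open WeierstrassCurve WeierstrassCurve.Affine
open scoped WeierstrassCurve.Affine

local notation "Qb" => AlgebraicClosure ℚ

/-- The 3-torsion of the base curve and of another member are equivariantly isomorphic. -/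
def SameTorsion (W W' : WeierstrassCurve ℤ) : Prop :=
  ∃ φ : Submodule.torsionBy ℤ ((W.map (Int.castRingHom ℚ))⁄Qb).toAffine.Point (3 : ℕ) ≃+
      Submodule.torsionBy ℤ ((W'.map (Int.castRingHom ℚ))⁄Qb).toAffine.Point (3 : ℕ),
    ∀ (σ : Qb ≃ₐ[ℚ] Qb) x, φ (σ • x) = σ • φ x

variable {W W' : WeierstrassCurve ℤ}

theorem SameTorsion.modRepIsIrreducible (h : SameTorsion W W')
    (hW : W.ModRepIsIrreducible 3) : W'.ModRepIsIrreducible 3 := by
  obtain ⟨φ, hφ⟩ := h
  obtain ⟨hnt, hirr⟩ := hW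
  let φl := { φ with map_smul' := fun c x => ZMod.map_smul φ.toAddMonoidHom c x : _ ≃ₗ[ZMod 3] _ }
  refine ⟨φl.symm.toEquiv.nontrivial, fun N hN => ?_⟩
  have := hirr (N.comap φl.toLinearMap) fun σ x hx => by
    show φ (σ • x) ∈ N
    rw [hφ]
    exact hN σ _ hx
  rcases this with h | h
  · exact Or.inl (by
      rw [← Submodule.map_comap_eq_of_surjective φl.surjective N, h, Submodule.map_bot])
  · exact Or.inr (by
      rw [← Submodule.map_comap_eq_of_surjective φl.surjective N, h, Submodule.map_top,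
        LinearEquiv.range])

theorem SameTorsion.galoisTrace_eq (h : SameTorsion W W') (σ : Qb ≃ₐ[ℚ] Qb) :
    Point.galoisTrace (K := Qb) ℚ (W.map (Int.castRingHom ℚ)).toAffine 3 σ
      = Point.galoisTrace (K := Qb) ℚ (W'.map (Int.castRingHom ℚ)).toAffine 3 σ := by
  obtain ⟨φ, hφ⟩ := h
  let φl := { φ with map_smul' := fun c x => ZMod.map_smul φ.toAddMonoidHom c x : _ ≃ₗ[ZMod 3] _ }
  rw [Point.galoisTrace_def, Point.galoisTrace_def,
    ← LinearMap.trace_conj' (Point.galoisRepModuleEnd (K := Qb) ℚ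
      (W.map (Int.castRingHom ℚ)).toAffine 3 σ) φl]
  congr 1
  refine LinearMap.ext fun y => ?_
  rw [LinearEquiv.conj_apply_apply]
  show φ (σ • φl.symm y) = σ • y
  rw [hφ]
  exact congrArg (σ • ·) (φl.apply_symm_apply y)

theorem SameTorsion.three_dvd_apOfModel_sub (h : SameTorsion W W') {ℓ : ℕ} (hℓ : ℓ.Prime)
    (hg : W.IsGoodPrimeFor ℓ) (hg' : W'.IsGoodPrimeFor ℓ) (h3 : ℓ ≠ 3) :
    (3 : ℤ) ∣ W'.apOfModel ℓ - W.apOfModel ℓ := by
  have : Fact (Nat.Prime 3) := ⟨Nat.prime_three⟩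
  obtain ⟨A, hA⟩ := Arith.exists_liesOverPrime hℓ
  obtain ⟨σ, hσ⟩ := Arith.exists_isFrobeniusAt hA hℓ
  have e := EC.FrobTrace.galoisTrace_frobenius (p := 3) W hℓ hg h3 hA hσ
  have e' := EC.FrobTrace.galoisTrace_frobenius (p := 3) W' hℓ hg' h3 hA hσ
  exact (ZMod.intCast_zmod_eq_zero_iff_dvd _ 3).mp (by
    push_cast
    rw [← e', ← e]
    exact sub_eq_zero.mpr (h.galoisTrace_eq σ).symm)

instance instFactPrimeTwoFamily : Fact (Nat.Prime 2) := ⟨Nat.prime_two⟩

/-- Good reduction at `2` with even `a₁` is supersingular. -/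
theorem two_dvd_apOfModel_two (h1 : (2 : ℤ) ∣ W.a₁) (hg : W.IsGoodPrimeFor 2) :
    (2 : ℤ) ∣ W.apOfModel 2 := by
  set V := W.reductionMod 2 with hV
  have ha1 : V.a₁ = 0 := (ZMod.intCast_zmod_eq_zero_iff_dvd _ 2).mpr h1
  have hΔ : V.Δ ≠ 0 := fun h => hg (by
    rw [hV, WeierstrassCurve.reductionMod, map_Δ] at h
    exact (ZMod.intCast_zmod_eq_zero_iff_dvd _ 2).mp h)
  have ha3 : V.a₃ = 1 := by
    by_contra h
    have h0 : V.a₃ = 0 := ((by decide : ∀ z : ZMod 2, z = 0 ∨ z = 1) V.a₃).resolve_right h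
    apply hΔ
    simp only [WeierstrassCurve.Δ, WeierstrassCurve.b₂, WeierstrassCurve.b₄, WeierstrassCurve.b₆,
      WeierstrassCurve.b₈, ha1, h0]
    generalize V.a₂ = p
    generalize V.a₄ = q
    generalize V.a₆ = r
    revert p q r
    decide
  classical
  have hcard : V.card = 1 + Nat.card {z : ZMod 2 × ZMod 2 // V.toAffine.Nonsingular z.1 z.2} := by
    let e : V.toAffine.Point ≃ Option {z : ZMod 2 × ZMod 2 // V.toAffine.Nonsingular z.1 z.2} :=
      { toFun := fun P => match P with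
          | .zero => none
          | .some x y h => some ⟨(x, y), h⟩
        invFun := fun o => match o with
          | none => .zero
          | some ⟨(x, y), h⟩ => .some x y h
        left_inv := by rintro (_ | ⟨x, y, h⟩) <;> rfl
        right_inv := by rintro (_ | ⟨⟨x, y⟩, h⟩) <;> rfl }
    rw [WeierstrassCurve.card, Nat.card_congr e, Finite.card_option, add_comm]
  have hns : ∀ x y : ZMod 2, V.toAffine.Nonsingular x y ↔
      y ^ 2 + y = x ^ 3 + V.a₂ * x ^ 2 + V.a₄ * x + V.a₆ := by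
    intro x y
    have : V.toAffine.IsElliptic := ⟨isUnit_iff_ne_zero.mpr hΔ⟩
    rw [← Affine.equation_iff_nonsingular, Affine.equation_iff]
    simp [ha1, ha3]
  have heven : 2 ∣ Nat.card {z : ZMod 2 × ZMod 2 // V.toAffine.Nonsingular z.1 z.2} := by
    simp only [hns, Nat.card_eq_fintype_card, Fintype.card_subtype]
    generalize V.a₂ = p
    generalize V.a₄ = q
    generalize V.a₆ = r
    revert p q r
    decide
  have : W.apOfModel 2 = 3 - (V.card : ℤ) := by
    simp [apOfModel, traceOfFrobenius, ← hV]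
  rw [this, hcard]
  omega

end Fermat.Agent.Two.Family
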