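import Mathlib
import Fermat.Agent.Two.Family.Forms
import Fermat.Agent.Two.Family.Model
import Fermat.Agent.Two.Family.AtTwo
import Fermat.Agent.Two.Family.Transfer
import Fermat.Agent.Two.Family.Select
import Fermat.Agent.Two.Family.SplitPrime

/-!
# A well chosen member of the pencil

For a semistable curve multiplicative at `2` with `3 ∣ v₂ Δ` there is a semistable curve with the
same 3-torsion, negative discriminant, good supersingular reduction at `2` and odd valuations of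
the discriminant.
-/

set_option autoImplicit false

noncomputable section

namespace Fermat.Agent.Two.Family

open WeierstrassCurve

local notation "Qb" => AlgebraicClosure ℚ

/-- The twist of the coefficients by `l`. -/
def scaleCurve (W : WeierstrassCurve ℤ) (l : ℤ) : WeierstrassCurve ℤ :=
  ⟨l * W.a₁, l ^ 2 * W.a₂, l ^ 3 * W.a₃, l ^ 4 * W.a₄, l ^ 6 * W.a₆⟩

theorem c₄_scaleCurve (W : WeierstrassCurve ℤ) (l : ℤ) : (scaleCurve W l).c₄ = l ^ 4 * W.c₄ := by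
  simp only [scaleCurve, WeierstrassCurve.c₄, WeierstrassCurve.b₂, WeierstrassCurve.b₄]; ring

theorem c₆_scaleCurve (W : WeierstrassCurve ℤ) (l : ℤ) : (scaleCurve W l).c₆ = l ^ 6 * W.c₆ := by
  simp only [scaleCurve, WeierstrassCurve.c₆, WeierstrassCurve.b₂, WeierstrassCurve.b₄,
    WeierstrassCurve.b₆]; ring

theorem c₆_emod_four {W : WeierstrassCurve ℤ} (h : ¬ (2 : ℤ) ∣ W.c₄) : W.c₆ % 4 = 3 := by
  have h1 : ¬ (2 : ℤ) ∣ W.a₁ := fun ⟨k, hk⟩ => h ⟨8 * (k ^ 2 + W.a₂) ^ 2 - 24 * W.a₄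
      - 24 * k * W.a₃, by
    simp only [WeierstrassCurve.c₄, WeierstrassCurve.b₂, WeierstrassCurve.b₄, hk]; ring⟩
  obtain ⟨k, hk⟩ : ∃ k, W.a₁ = 2 * k + 1 := ⟨W.a₁ / 2, by omega⟩
  have : ∃ e, W.c₆ = 4 * e + 3 := by
    set q := k ^ 2 + k + W.a₂ with hq
    refine ⟨-1 - (3 * q + 12 * q ^ 2 + 16 * q ^ 3) + 9 * (4 * q + 1) * W.b₄ - 54 * W.b₆, ?_⟩
    have hb : W.b₂ = 4 * q + 1 := by
      simp only [WeierstrassCurve.b₂, hk, hq]; ring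
    simp only [WeierstrassCurve.c₆, hb]; ring
  obtain ⟨e, he⟩ := this
  omega

theorem padicValInt_two_pow_mul {p : ℕ} [Fact p.Prime] (hp : p ≠ 2) (m : ℕ) {x : ℤ} (hx : x ≠ 0) :
    padicValInt p (2 ^ m * x) = padicValInt p x := by
  rw [padicValInt.mul (pow_ne_zero _ two_ne_zero) hx, padicValInt.eq_zero_of_not_dvd ?_, zero_add]
  intro h
  have h2 := (Nat.prime_iff_prime_int.mp (Fact.out : p.Prime)).dvd_of_dvd_pow h
  exact hp ((Nat.prime_dvd_prime_iff_eq (Fact.out : p.Prime) Nat.prime_two).mp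
    (by exact_mod_cast h2))

theorem baseChange_c (W : WeierstrassCurve ℤ) :
    (W.map (Int.castRingHom ℚ)).c₄ = (W.c₄ : ℚ) ∧ (W.map (Int.castRingHom ℚ)).c₆ = (W.c₆ : ℚ) ∧
      (W.map (Int.castRingHom ℚ)).Δ = (W.Δ : ℚ) := by
  simp

/-- `qD` dehomogenised. -/
def qDPoly (c₄ c₆ : ℤ) : Polynomial ℤ :=
  Polynomial.X ^ 4 + Polynomial.C (-6 * c₄) * Polynomial.X ^ 2 +
    Polynomial.C (-8 * c₆) * Polynomial.X + Polynomial.C (-3 * c₄ ^ 2)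

theorem qDPoly_monic (c₄ c₆ : ℤ) : (qDPoly c₄ c₆).Monic := by
  unfold qDPoly
  monicity!

theorem eval_qDPoly (c₄ c₆ x : ℤ) : (qDPoly c₄ c₆).eval x = qD c₄ c₆ x 1 := by
  simp [qDPoly, dehom_qD]

theorem exists_real_root_qDPoly {c₄ : ℤ} (c₆ : ℤ) (hc : c₄ ≠ 0) :
    ∃ x : ℝ, Polynomial.eval₂ (Int.castRingHom ℝ) x (qDPoly c₄ c₆) = 0 := by
  let f : ℝ → ℝ := fun x => qD (c₄ : ℝ) c₆ x 1
  let X : ℝ := 1 + 6 * |(c₄ : ℝ)| + 8 * |(c₆ : ℝ)| + 3 * (c₄ : ℝ) ^ 2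
  have hX : 1 ≤ X := by
    have := abs_nonneg (c₄ : ℝ); have := abs_nonneg (c₆ : ℝ); have := sq_nonneg (c₄ : ℝ)
    simp only [X]; linarith
  have hf0 : f 0 < 0 := by
    simp [f, qD]
    positivity
  have hfX : 0 < f X := by
    have e : X ^ 4 = X ^ 3 * (1 + 6 * |(c₄ : ℝ)| + 8 * |(c₆ : ℝ)| + 3 * (c₄ : ℝ) ^ 2) := by
      simp only [X]; ring
    have h23 : X ^ 2 ≤ X ^ 3 := pow_le_pow_right₀ hX (by norm_num)
    have h13 : X ≤ X ^ 3 := le_self_pow₀ hX (by norm_num)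
    have h03 : (1 : ℝ) ≤ X ^ 3 := one_le_pow₀ hX
    have t1 : (c₄ : ℝ) * X ^ 2 ≤ |(c₄ : ℝ)| * X ^ 3 :=
      mul_le_mul (le_abs_self _) h23 (by positivity) (abs_nonneg _)
    have t2 : (c₆ : ℝ) * X ≤ |(c₆ : ℝ)| * X ^ 3 :=
      mul_le_mul (le_abs_self _) h13 (by positivity) (abs_nonneg _)
    have t3 : (c₄ : ℝ) ^ 2 ≤ (c₄ : ℝ) ^ 2 * X ^ 3 := le_mul_of_one_le_right (sq_nonneg _) h03
    simp only [f, dehom_qD]
    linarith
  obtain ⟨x, -, hx⟩ := intermediate_value_Icc (by linarith : (0 : ℝ) ≤ X)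
    (f := f) (by simp only [f, qD]; fun_prop) ⟨hf0.le, hfX.le⟩
  refine ⟨x, ?_⟩
  rw [← Polynomial.eval_map]
  simpa [qDPoly, f, dehom_qD] using hx

/-- Two classes modulo `12` of primes with a simple root of `qD`: one, and minus one. -/
theorem exists_root_primes {c₄ c₆ Δ : ℤ} (hrel : c₄ ^ 3 - c₆ ^ 2 = 1728 * Δ) (hΔ : Δ ≠ 0)
    (hc : c₄ ≠ 0) {R : ℕ} (hR : R ≠ 0) :
    ∃ l l' : ℕ, l % 12 = 1 ∧ l' % 12 = 11 ∧ ∀ m ∈ ({l, l'} : Finset ℕ),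
      (m.Prime ∧ m ≠ 2 ∧ m ≠ 3 ∧ ¬ (m : ℤ) ∣ Δ ∧ ¬ m ∣ R) ∧
      ∃ x₀ : ℤ, (m : ℤ) ∣ qD c₄ c₆ x₀ 1 ∧ ¬ (m : ℤ) ^ 2 ∣ qD c₄ c₆ x₀ 1 := by
  set S := ({2, 3} : Finset ℕ) ∪ Δ.natAbs.primeFactors ∪ R.primeFactors with hS
  have key : ∀ m : ℕ, m.Prime → m ∉ S → (∃ r : ℤ, (m : ℤ) ∣ (qDPoly c₄ c₆).eval r) →
      (m.Prime ∧ m ≠ 2 ∧ m ≠ 3 ∧ ¬ (m : ℤ) ∣ Δ ∧ ¬ m ∣ R) ∧
      ∃ x₀ : ℤ, (m : ℤ) ∣ qD c₄ c₆ x₀ 1 ∧ ¬ (m : ℤ) ^ 2 ∣ qD c₄ c₆ x₀ 1 := by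
    intro l hl hlS ⟨r, hr⟩
    simp only [hS, Finset.mem_union, Finset.mem_insert, Finset.mem_singleton, not_or] at hlS
    obtain ⟨⟨⟨hl2, hl3⟩, hlΔ'⟩, hlR'⟩ := hlS
    have hlΔ : ¬ (l : ℤ) ∣ Δ := fun h => hlΔ'
      (Nat.mem_primeFactors.mpr ⟨hl, Int.natCast_dvd.mp h, Int.natAbs_ne_zero.mpr hΔ⟩)
    refine ⟨⟨hl, hl2, hl3, hlΔ, fun h => hlR' (Nat.mem_primeFactors.mpr ⟨hl, h, hR⟩)⟩, ?_⟩
    rw [eval_qDPoly] at hr
    have : Fact l.Prime := ⟨hl⟩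
    by_cases h : (l : ℤ) ^ 2 ∣ qD c₄ c₆ r 1
    swap
    · exact ⟨r, hr, h⟩
    obtain ⟨w, hw⟩ : ∃ w, qD c₄ c₆ (r + l) 1 = qD c₄ c₆ r 1 + l * qDS c₄ c₆ r 1 + (l : ℤ) ^ 2 * w :=
      ⟨6 * r ^ 2 + 4 * r * l + (l : ℤ) ^ 2 - 6 * c₄, by simp only [qD, qDS]; ring⟩
    refine ⟨r + l, ?_, fun h' => ?_⟩
    · rw [hw]
      exact dvd_add (dvd_add hr (dvd_mul_right _ _))
        ((dvd_pow_self (l : ℤ) two_ne_zero).mul_right _)
    rw [hw, dvd_add_left (dvd_mul_right _ _), dvd_add_right h, pow_two,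
      mul_dvd_mul_iff_left (Nat.cast_ne_zero.mpr hl.ne_zero)] at h'
    rw [← ZMod.intCast_zmod_eq_zero_iff_dvd, ← eq_intCast (Int.castRingHom (ZMod l))] at hr h'
    rw [map_qD] at hr
    rw [map_qDS] at h'
    have hne : ∀ q : ℕ, q.Prime → l ≠ q → ((q : ℕ) : ZMod l) ≠ 0 := fun q hq hlq h0 =>
      hlq ((Nat.prime_dvd_prime_iff_eq hl hq).mp ((ZMod.natCast_eq_zero_iff _ _).mp h0))
    have hd : ((c₄ : ℤ) : ZMod l) ^ 3 - ((c₆ : ℤ) : ZMod l) ^ 2 ≠ 0 := by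
      rw [cast_rel hrel, show (1728 : ZMod l) = 2 ^ 6 * 3 ^ 3 by norm_num]
      refine mul_ne_zero (mul_ne_zero (pow_ne_zero _ ?_) (pow_ne_zero _ ?_)) ?_
      · simpa using hne 2 Nat.prime_two hl2
      · simpa using hne 3 Nat.prime_three hl3
      · rwa [Ne, ZMod.intCast_zmod_eq_zero_iff_dvd]
    obtain ⟨-, hT⟩ := eq_zero_of_qD_qDS (by simpa using hne 2 Nat.prime_two hl2)
      (by simpa using hne 3 Nat.prime_three hl3) (by simpa using hd) hr h'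
    simp at hT
  obtain ⟨x, hx⟩ := exists_real_root_qDPoly c₆ hc
  obtain ⟨l, hl, hlS, hl12, hr⟩ := exists_split_prime (qDPoly c₄ c₆) (qDPoly_monic _ _)
    (by rw [show (qDPoly c₄ c₆).natDegree = 4 by unfold qDPoly; compute_degree!]; norm_num)
    (N := 12) (by norm_num) S
  obtain ⟨l', hl', hlS', hl12', hr'⟩ := exists_real_root_prime (qDPoly c₄ c₆) (qDPoly_monic _ _)
    hx (N := 12) (by norm_num) S
  refine ⟨l, l', hl12, hl12', fun m hm => ?_⟩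
  rcases Finset.mem_insert.mp hm with rfl | hm
  · exact key _ hl hlS hr
  · rw [Finset.mem_singleton] at hm
    subst hm
    exact key _ hl' hlS' hr'

/-- **The good member of the pencil.** -/
theorem exists_good_member (W : WeierstrassCurve ℤ) (hW : W.IsSemistableModel) (hΔ : W.Δ ≠ 0)
    (h2 : (2 : ℤ) ∣ W.Δ) (h3v : 3 ∣ padicValInt 2 W.Δ) {R : ℕ} (hR0 : R ≠ 0)
    (hR : ∀ p : ℕ, p.Prime → p ∣ R → ¬ (p : ℤ) ∣ W.Δ) :
    ∃ W' : WeierstrassCurve ℤ, W'.Δ < 0 ∧ W'.IsSemistableModel ∧ ¬ (2 : ℤ) ∣ W'.Δ ∧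
      (2 : ℤ) ∣ W'.a₁ ∧ (2 : ℤ) ∣ W'.apOfModel 2 ∧
      (∀ p : ℕ, p.Prime → (p : ℤ) ∣ W'.Δ → Odd (padicValInt p W'.Δ)) ∧
      (∀ p : ℕ, p.Prime → p ≠ 2 → (p : ℤ) ∣ W.Δ → (p : ℤ) ∣ W'.Δ) ∧
      (∃ l : ℕ, l.Prime ∧ l % 12 = 1 ∧ (l : ℤ) ∣ W'.Δ) ∧
      (∃ l : ℕ, l.Prime ∧ l % 12 = 11 ∧ (l : ℤ) ∣ W'.Δ) ∧
      (∀ p : ℕ, p.Prime → p ∣ R → ¬ (p : ℤ) ∣ W'.Δ) ∧
      SameTorsion W W' ∧ (W.ModRepIsIrreducible 3 → W'.ModRepIsIrreducible 3) ∧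
      ∀ ℓ : ℕ, ℓ.Prime → W.IsGoodPrimeFor ℓ → W'.IsGoodPrimeFor ℓ → ℓ ≠ 3 →
        (3 : ℤ) ∣ W'.apOfModel ℓ - W.apOfModel ℓ := by
  obtain ⟨j, hj⟩ := h3v
  have hrel : W.c₄ ^ 3 - W.c₆ ^ 2 = 1728 * W.Δ := W.c_relation.symm
  have h4 : ¬ (2 : ℤ) ∣ W.c₄ := hW 2 Nat.prime_two h2
  obtain ⟨l, l', hl12, hl12', hLdata⟩ :=
    exists_root_primes hrel hΔ (fun h => h4 (h ▸ dvd_zero _)) hR0
  choose hL x₀ hx₀ using hLdata
  let xs : ℕ → ℤ := fun m => if hm : m ∈ ({l, l'} : Finset ℕ) then x₀ m hm else 0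
  have hxs : ∀ m ∈ ({l, l'} : Finset ℕ),
      (m : ℤ) ∣ qD W.c₄ W.c₆ (xs m) 1 ∧ ¬ (m : ℤ) ^ 2 ∣ qD W.c₄ W.c₆ (xs m) 1 := fun m hm => by
    simp only [xs, dif_pos hm]
    exact hx₀ m hm
  obtain ⟨S, T, hST, hneg, ⟨hT2, hcl⟩, h3good, hRT, hbad, hgood, hlqD⟩ :=
    exists_pencil_params hrel hΔ hW h2 (6 * j + 17) hR0 hR hL xs hxs
  set c₄ := W.c₄
  set c₆ := W.c₆
  set Δ := W.Δ
  obtain ⟨Δo, hΔo⟩ : (2 : ℤ) ^ (3 * j) ∣ Δ := by
    have := padicValInt_dvd (p := 2) Δ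
    rw [hj] at this
    exact_mod_cast this
  have hΔo2 : ¬ (2 : ℤ) ∣ Δo := fun ⟨e, he⟩ => by
    have h := (padicValInt_dvd_iff (p := 2) (3 * j + 1) Δ).mp
      ⟨e, by rw [hΔo, he, pow_succ]; push_cast; ring⟩
    rcases h with h | h
    · exact hΔ h
    · omega
  obtain ⟨⟨x, hx⟩, ⟨y, hy⟩, n, hn2, hn⟩ :=
    at_two hrel hΔo hΔo2 h4 (c₆_emod_four h4) hT2 le_rfl hcl
  have hqD : qD c₄ c₆ S T ≠ 0 := fun h => by simp [h] at hneg
  have hDq : Δ * qD c₄ c₆ S T ^ 3 = 2 ^ (12 * (j + 2)) * (Δo * n ^ 3) := by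
    rw [hn, hΔo, show 12 * (j + 2) = 3 * j + 3 * (3 * j + 8) by omega, pow_add, pow_mul']; ring
  have hD0 : Δ * qD c₄ c₆ S T ^ 3 ≠ 0 := mul_ne_zero hΔ (pow_ne_zero _ hqD)
  have hrel' : (16 * x) ^ 3 - (32 * y + 8) ^ 2 = 1728 * (Δo * n ^ 3) := by
    refine mul_left_cancel₀ (pow_ne_zero (12 * (j + 2)) (two_ne_zero (α := ℤ))) ?_
    have e := qC4_cube_sub_qC6_sq c₄ c₆ S T
    rw [hx, hy, hrel, mul_assoc, hDq] at e
    linear_combination e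
  have m2 : HasModelAt 16 64 (16 * x) (32 * y + 8) :=
    hasModelAt_two_of_supersingular (dvd_mul_right _ _) ⟨y, by ring⟩
  have m3 : HasModelAt 3 27 (16 * x) (32 * y + 8) := by
    by_cases h3 : (3 : ℤ) ∣ Δ
    · refine hasModelAt_three_of_unit hrel' fun h => (hbad 3 Nat.prime_three (by norm_num) h3).1 ?_
      rw [hx]
      exact h.mul_left _
    · obtain ⟨hS, hT⟩ := h3good h3
      obtain ⟨l, m, hlm⟩ : IsCoprime ((2 : ℤ) ^ (j + 2)) (27 : ℤ) := by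
        rw [show (27 : ℤ) = 3 ^ 3 by norm_num]
        exact (show IsCoprime (2 : ℤ) 3 by norm_num).pow
      have h27 : ∀ {z : ℤ}, (3 : ℤ) ^ 6 ∣ z → (z : ZMod 27) = 0 := fun hz =>
        (ZMod.intCast_zmod_eq_zero_iff_dvd _ 27).mpr ((by norm_num : (27 : ℤ) ∣ 3 ^ 6).trans hz)
      have hS1 : (S : ZMod 27) = 1 := by
        have := h27 hS
        push_cast at this
        exact sub_eq_zero.mp this
      have hl : (l : ZMod 27) * 2 ^ (j + 2) = 1 := by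
        have := congrArg (Int.cast (R := ZMod 27)) hlm
        push_cast at this
        rwa [show (27 : ZMod 27) = 0 from rfl, mul_zero, add_zero] at this
      have k4 : ((qC4 c₄ c₆ S T : ℤ) : ZMod 27) = (c₄ : ZMod 27) := by
        rw [← eq_intCast (Int.castRingHom (ZMod 27)), map_qC4]
        simp [hS1, h27 hT, qC4_one_zero]
      have k6 : ((qC6 c₄ c₆ S T : ℤ) : ZMod 27) = (c₆ : ZMod 27) := by
        rw [← eq_intCast (Int.castRingHom (ZMod 27)), map_qC6]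
        simp [hS1, h27 hT, qC6_one_zero]
      refine hasModelAt_three_of_modEq (scaleCurve W l)
        ((ZMod.intCast_eq_intCast_iff _ _ 27).mp ?_) ((ZMod.intCast_eq_intCast_iff _ _ 27).mp ?_)
      · rw [c₄_scaleCurve]
        rw [hx, show 4 * (j + 2) = (j + 2) * 4 by ring, pow_mul] at k4
        push_cast at k4 ⊢
        rw [← k4, show ((l : ZMod 27)) ^ 4 * ((2 ^ (j + 2)) ^ 4 * (16 * (x : ZMod 27)))
          = ((l : ZMod 27) * 2 ^ (j + 2)) ^ 4 * (16 * x) by ring, hl]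
        ring
      · rw [c₆_scaleCurve]
        rw [hy, show 6 * (j + 2) = (j + 2) * 6 by ring, pow_mul] at k6
        push_cast at k6 ⊢
        rw [← k6, show ((l : ZMod 27)) ^ 6 * ((2 ^ (j + 2)) ^ 6 * (32 * (y : ZMod 27) + 8))
          = ((l : ZMod 27) * 2 ^ (j + 2)) ^ 6 * (32 * y + 8) by ring, hl]
        ring
  obtain ⟨W', e4, e6, eΔ⟩ := exists_model hrel' m2 m3
  have hDq' : Δ * qD c₄ c₆ S T ^ 3 = 2 ^ (12 * (j + 2)) * W'.Δ := by rw [hDq, eΔ]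
  have hW'0 : W'.Δ ≠ 0 := fun h => hD0 (by rw [hDq', h, mul_zero])
  have hodd : ¬ (2 : ℤ) ∣ W'.Δ := by
    rw [eΔ]
    intro h
    rcases Int.prime_two.dvd_mul.mp h with h | h
    · exact hΔo2 h
    · exact hn2 (Int.prime_two.dvd_of_dvd_pow h)
  have hval : ∀ (p : ℕ) [Fact p.Prime], p ≠ 2 →
      padicValInt p (Δ * qD c₄ c₆ S T ^ 3) = padicValInt p W'.Δ := fun p _ hp => by
    rw [hDq', padicValInt_two_pow_mul hp _ hW'0]
  have hne2 : ∀ {p : ℕ}, (p : ℤ) ∣ W'.Δ → p ≠ 2 := fun h e => hodd (by rw [e] at h; exact_mod_cast h)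
  have hsplit : ∀ {p : ℕ}, p.Prime → (p : ℤ) ∣ W'.Δ →
      (p : ℤ) ∣ Δ ∨ (p : ℤ) ∣ qD c₄ c₆ S T := fun hp h => by
    rcases (Nat.prime_iff_prime_int.mp hp).dvd_mul.mp
      (show (_ : ℤ) ∣ Δ * qD c₄ c₆ S T ^ 3 from hDq' ▸ h.mul_left _) with h | h
    · exact Or.inl h
    · exact Or.inr ((Nat.prime_iff_prime_int.mp hp).dvd_of_dvd_pow h)
  -- away from the discriminant a prime of the new discriminant is at least 5
  have hnot3 : ¬ (3 : ℤ) ∣ Δ → ¬ (3 : ℤ) ∣ qD c₄ c₆ S T := fun h3 h => by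
    obtain ⟨hS, hT⟩ := h3good h3
    have hs : (S : ZMod 3) = 1 := by
      have := (ZMod.intCast_zmod_eq_zero_iff_dvd _ 3).mpr ((dvd_pow_self (3 : ℤ) (by norm_num)).trans hS)
      push_cast at this
      exact sub_eq_zero.mp this
    have ht : (T : ZMod 3) = 0 :=
      (ZMod.intCast_zmod_eq_zero_iff_dvd _ 3).mpr ((dvd_pow_self (3 : ℤ) (by norm_num)).trans hT)
    have h0 := (ZMod.intCast_zmod_eq_zero_iff_dvd _ 3).mpr h
    rw [← eq_intCast (Int.castRingHom (ZMod 3)), map_qD] at h0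
    simp [hs, ht, qD_one_zero] at h0
  have hss : W'.IsSemistableModel := by
    intro p hp hpΔ hpc
    have hp2 := hne2 hpΔ
    have hq4 : (p : ℤ) ∣ qC4 c₄ c₆ S T := by rw [hx, ← e4]; exact hpc.mul_left _
    by_cases hpW : (p : ℤ) ∣ Δ
    · exact (hbad p hp hp2 hpW).1 hq4
    · have hqd := (hsplit hp hpΔ).resolve_left hpW
      have hp3 : p ≠ 3 := fun e => by subst e; exact hnot3 hpW hqd
      have : Fact p.Prime := ⟨hp⟩
      have hz : ∀ q : ℕ, q.Prime → p ≠ q → ((q : ℕ) : ZMod p) ≠ 0 := fun q hq hpq h0 =>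
        hpq ((Nat.prime_dvd_prime_iff_eq hp hq).mp ((ZMod.natCast_eq_zero_iff _ _).mp h0))
      have z2 : (2 : ZMod p) ≠ 0 := by simpa using hz 2 Nat.prime_two hp2
      have z3 : (3 : ZMod p) ≠ 0 := by simpa using hz 3 Nat.prime_three hp3
      have hd : ((c₄ : ℤ) : ZMod p) ^ 3 - ((c₆ : ℤ) : ZMod p) ^ 2 ≠ 0 := by
        rw [← Int.cast_pow, ← Int.cast_pow, ← Int.cast_sub, hrel]
        push_cast
        refine mul_ne_zero ?_ (fun h => hpW ((ZMod.intCast_zmod_eq_zero_iff_dvd _ p).mp h))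
        rw [show (1728 : ZMod p) = 2 ^ 6 * 3 ^ 3 by norm_num]
        exact mul_ne_zero (pow_ne_zero _ z2) (pow_ne_zero _ z3)
      have k1 := (ZMod.intCast_zmod_eq_zero_iff_dvd _ p).mpr hqd
      have k2 := (ZMod.intCast_zmod_eq_zero_iff_dvd _ p).mpr hq4
      rw [← eq_intCast (Int.castRingHom (ZMod p)), map_qD] at k1
      rw [← eq_intCast (Int.castRingHom (ZMod p)), map_qC4] at k2
      obtain ⟨hS0, hT0⟩ := eq_zero_of_qD_qC4 z2 z3 (by simpa using hd) k1 k2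
      simp only [eq_intCast, ZMod.intCast_zmod_eq_zero_iff_dvd] at hS0 hT0
      exact (Nat.prime_iff_prime_int.mp hp).not_isUnit (hST.isUnit_of_dvd' hS0 hT0)
  have htors : SameTorsion W W' := by
    have h2q : ((2 : ℚ) ^ (j + 2)) ≠ 0 := pow_ne_zero _ two_ne_zero
    have c := baseChange_c W
    have c' := baseChange_c W'
    refine exists_torsion_equiv (c₄ := (c₄ : ℚ)) (c₆ := (c₆ : ℚ))
      (S := (S : ℚ) / 2 ^ (j + 2)) (T := (T : ℚ) / 2 ^ (j + 2))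
      (W.map (Int.castRingHom ℚ)) (W'.map (Int.castRingHom ℚ)) c.1 c.2.1
      (c.2.2.trans_ne (Int.cast_ne_zero.mpr hΔ)) (c'.1.trans ?_) (c'.2.1.trans ?_) ?_
    · rw [e4, div_eq_inv_mul, div_eq_inv_mul, qC4_smul,
        show qC4 (c₄ : ℚ) c₆ S T = ((qC4 c₄ c₆ S T : ℤ) : ℚ) from
          (map_qC4 (Int.castRingHom ℚ) _ _ _ _).symm, hx]
      push_cast
      rw [show 4 * (j + 2) = (j + 2) * 4 by ring, pow_mul]
      field_simp
    · rw [e6, div_eq_inv_mul, div_eq_inv_mul, qC6_smul,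
        show qC6 (c₄ : ℚ) c₆ S T = ((qC6 c₄ c₆ S T : ℤ) : ℚ) from
          (map_qC6 (Int.castRingHom ℚ) _ _ _ _).symm, hy]
      push_cast
      rw [show 6 * (j + 2) = (j + 2) * 6 by ring, pow_mul]
      field_simp
    · rw [div_eq_inv_mul, div_eq_inv_mul, qD_smul,
        show qD (c₄ : ℚ) c₆ S T = ((qD c₄ c₆ S T : ℤ) : ℚ) from
          (map_qD (Int.castRingHom ℚ) _ _ _ _).symm]
      exact mul_ne_zero (pow_ne_zero _ (inv_ne_zero h2q)) (Int.cast_ne_zero.mpr hqD)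
  have ha1 : (2 : ℤ) ∣ W'.a₁ := two_dvd_a₁ (e4 ▸ dvd_mul_right _ _)
  have hlW : ∀ m ∈ ({l, l'} : Finset ℕ), (m : ℤ) ∣ W'.Δ := fun m hm => by
    have hp := (hL m hm).1
    have h : (m : ℤ) ∣ 2 ^ (12 * (j + 2)) * W'.Δ :=
      hDq' ▸ dvd_mul_of_dvd_right (dvd_pow (hlqD m hm) three_ne_zero) _
    refine ((Nat.prime_iff_prime_int.mp hp).dvd_mul.mp h).resolve_left fun h => ?_
    have h' := hp.dvd_of_dvd_pow (show m ∣ 2 ^ (12 * (j + 2)) by exact_mod_cast h)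
    exact (hL m hm).2.1 ((Nat.prime_dvd_prime_iff_eq hp Nat.prime_two).mp h')
  have hl : l ∈ ({l, l'} : Finset ℕ) := by simp
  have hl' : l' ∈ ({l, l'} : Finset ℕ) := by simp
  refine ⟨W', ?_, hss, hodd, ha1, two_dvd_apOfModel_two ha1 hodd, ?_, ?_,
    ⟨l, (hL l hl).1, hl12, hlW l hl⟩,
    ⟨l', (hL l' hl').1, hl12', hlW l' hl'⟩,
    ?_, htors, htors.modRepIsIrreducible, fun ℓ hℓ => htors.three_dvd_apOfModel_sub hℓ⟩
  · have h : Δ * qD c₄ c₆ S T ^ 3 < 0 := by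
      rw [show Δ * qD c₄ c₆ S T ^ 3 = Δ * qD c₄ c₆ S T * qD c₄ c₆ S T ^ 2 by ring]
      exact mul_neg_of_neg_of_pos hneg (by positivity)
    rw [hDq'] at h
    exact neg_of_mul_neg_right h (by positivity)
  · intro p hp hpΔ
    have : Fact p.Prime := ⟨hp⟩
    have hp2 := hne2 hpΔ
    rw [← hval p hp2]
    by_cases hpW : (p : ℤ) ∣ Δ
    · exact (hbad p hp hp2 hpW).2
    · have hqd := (hsplit hp hpΔ).resolve_left hpW
      have hp3 : p ≠ 3 := fun e => by subst e; exact hnot3 hpW hqd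
      have hsq := hgood p hp hp2 hp3 hpW
      have hv : padicValInt p (qD c₄ c₆ S T) = 1 := by
        have a : 1 ≤ padicValInt p (qD c₄ c₆ S T) :=
          ((padicValInt_dvd_iff 1 _).mp (by simpa using hqd)).resolve_left hqD
        have b : ¬ 2 ≤ padicValInt p (qD c₄ c₆ S T) := fun h =>
          hsq ((padicValInt_dvd_iff 2 _).mpr (Or.inr h))
        omega
      rw [padicValInt.mul hΔ (pow_ne_zero _ hqD), padicValInt.eq_zero_of_not_dvd hpW,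
        show qD c₄ c₆ S T ^ 3 = qD c₄ c₆ S T * qD c₄ c₆ S T * qD c₄ c₆ S T by ring,
        padicValInt.mul (mul_ne_zero hqD hqD) hqD, padicValInt.mul hqD hqD, hv]
      decide
  · intro p hp hp2 hpW
    have : Fact p.Prime := ⟨hp⟩
    have h := (hbad p hp hp2 hpW).2
    rw [hval p hp2] at h
    by_contra hd
    rw [padicValInt.eq_zero_of_not_dvd hd] at h
    exact absurd h (by decide)
  · intro p hp hpR hpΔ
    rcases hsplit hp hpΔ with h | h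
    · exact hR p hp hpR h
    · exact (hRT p hp hpR).2 h

end Fermat.Agent.Two.Family
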